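import Fermat.Agent.S55.P.Close

/-!
# S55, block (P): package P-PL3, ramification criterion for adjoining roots
-/

set_option autoImplicit false

namespace Fermat.Agent.S55.P

open NumberField IsDedekindDomain ExtCitation
open scoped Pointwise

local notation "Qbar" => AlgebraicClosure ℚ
local notation "GQ" => (AlgebraicClosure ℚ ≃ₐ[ℚ] AlgebraicClosure ℚ)

theorem roots_valuation_intCast_le (A : ValuationSubring Qbar) (z : ℤ) :
    A.valuation (z : Qbar) ≤ 1 :=
  (A.valuation_le_one_iff _).mpr (intCast_mem A z)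

theorem roots_valuation_eq_one {A : ValuationSubring Qbar} {x : Qbar} (hx : IsUnitAt A x) :
    A.valuation x = 1 := by
  have h1 : A.valuation x ≤ 1 := (A.valuation_le_one_iff _).mpr hx.1
  have h2 : A.valuation x⁻¹ ≤ 1 := (A.valuation_le_one_iff _).mpr hx.2.1
  have h0 : A.valuation x ≠ 0 := (Valuation.ne_zero_iff _).mpr hx.2.2
  rw [map_inv₀, inv_le_one₀ (zero_lt_iff.mpr h0)] at h2
  exact le_antisymm h1 h2

/-- an integer prime to the residue characteristic is not in the maximal ideal. -/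
theorem roots_natCast_not_mem_nonunits {A : ValuationSubring Qbar} {q n : ℕ} (hq : q.Prime)
    (hA : A.LiesOverPrime q) (hqn : ¬ q ∣ n) : (n : Qbar) ∉ A.nonunits := by
  intro hn
  have hco : Nat.Coprime n q := ((Nat.Prime.coprime_iff_not_dvd hq).mpr hqn).symm
  have h1 : (1 : Qbar) = (n : Qbar) * ((Nat.gcdA n q : ℤ) : Qbar) +
      (q : Qbar) * ((Nat.gcdB n q : ℤ) : Qbar) := by
    have h2 := Nat.gcd_eq_gcd_ab n q
    rw [hco] at h2
    exact_mod_cast h2
  have hvn : A.valuation (n : Qbar) < 1 := A.mem_nonunits_iff.mp hn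
  have hvq : A.valuation (q : Qbar) < 1 := A.mem_nonunits_iff.mp hA
  have h3 : A.valuation ((n : Qbar) * ((Nat.gcdA n q : ℤ) : Qbar)) < 1 := by
    rw [map_mul]
    exact (mul_le_of_le_one_right' (roots_valuation_intCast_le A _)).trans_lt hvn
  have h4 : A.valuation ((q : Qbar) * ((Nat.gcdB n q : ℤ) : Qbar)) < 1 := by
    rw [map_mul]
    exact (mul_le_of_le_one_right' (roots_valuation_intCast_le A _)).trans_lt hvq
  have h5 := Valuation.map_add_lt _ h3 h4
  rw [← h1, map_one] at h5
  exact lt_irrefl _ h5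

/-- an `n`-th root of unity congruent to `1` is `1`, if `n` is prime to the residue
characteristic. -/
theorem roots_eq_one_of_sub_one_mem_nonunits {A : ValuationSubring Qbar} {q n : ℕ}
    (hq : q.Prime) (hA : A.LiesOverPrime q) (hn : 0 < n) (hqn : ¬ q ∣ n) {ζ : Qbar}
    (hζ : ζ ^ n = 1) (h : ζ - 1 ∈ A.nonunits) : ζ = 1 := by
  by_contra hne
  have hζA : ζ ∈ A := (isUnitAt_of_pow_eq_one hn hζ).1
  have hsum : ∑ i ∈ Finset.range n, ζ ^ i = 0 := by
    have h1 := mul_geom_sum ζ n
    rw [hζ, sub_self] at h1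
    exact (mul_eq_zero.mp h1).resolve_left (sub_ne_zero.mpr hne)
  have hv1 : A.valuation (ζ - 1) < 1 := A.mem_nonunits_iff.mp h
  have hv : ∀ i : ℕ, A.valuation (ζ ^ i - 1) < 1 := by
    intro i
    rw [← mul_geom_sum, map_mul]
    have h2 : A.valuation (∑ j ∈ Finset.range i, ζ ^ j) ≤ 1 :=
      (A.valuation_le_one_iff _).mpr (sum_mem fun j _ => pow_mem hζA j)
    exact (mul_le_of_le_one_right' h2).trans_lt hv1
  apply roots_natCast_not_mem_nonunits hq hA hqn
  rw [ValuationSubring.mem_nonunits_iff]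
  have h3 : (n : Qbar) = - ∑ i ∈ Finset.range n, (ζ ^ i - 1) := by
    rw [Finset.sum_sub_distrib, hsum]
    simp
  rw [h3, Valuation.map_neg]
  exact Valuation.map_sum_lt _ one_ne_zero (fun i _ => hv i)

/-- an automorphism fixing `b` fixes `ℚ(b)`. -/
theorem roots_mem_fixingSubgroup_adjoin {σ : GQ} {b : Qbar} (h : σ b = b) :
    σ ∈ (IntermediateField.adjoin ℚ {b}).fixingSubgroup := by
  rw [IntermediateField.mem_fixingSubgroup_iff]
  intro x hx
  induction hx using IntermediateField.adjoin_induction with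
  | mem y hy =>
    rw [Set.mem_singleton_iff] at hy
    rw [hy, h]
  | algebraMap r => exact σ.commutes r
  | add y z _ _ hy hz => rw [map_add, hy, hz]
  | inv y _ hy => rw [map_inv₀, hy]
  | mul y z _ _ hy hz => rw [map_mul, hy, hz]

/-- **Ramification criterion for `p`-power roots.**  If `b ^ n = a ∈ K`, `K` unramified outside
`S`, all primes dividing `n` are in `S` and at each place outside `S` the element `a` is a unit
times an `n`-th power of `K`, then `K(b)` is unramified outside `S`. -/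
theorem isUnramifiedOutside_adjoin_root {S : Finset Nat.Primes} {K : IntermediateField ℚ Qbar}
    (hK : K.IsUnramifiedOutside S) {n : ℕ} (hn : 0 < n)
    (hnS : ∀ q : Nat.Primes, (q : ℕ) ∣ n → q ∈ S) {a b : Qbar} (ha : a ∈ K) (hb : b ^ n = a)
    (h : ∀ q : Nat.Primes, q ∉ S → ∀ A : ValuationSubring Qbar, A.LiesOverPrime (q : ℕ) →
      ∃ c ∈ K, c ≠ 0 ∧ IsUnitAt A (a / c ^ n)) :
    (K ⊔ IntermediateField.adjoin ℚ {b}).IsUnramifiedOutside S := by
  have hfK := hK.1
  have hgal := Fermat.Agent.Lib.FrobeniusExists.isGalois_algebraicClosure_rat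
  have hfb : FiniteDimensional ℚ (IntermediateField.adjoin ℚ {b}) :=
    IntermediateField.adjoin.finiteDimensional (IsGalois.integral ℚ b)
  refine ⟨IntermediateField.finiteDimensional_sup K _, fun q hq A hA σ hσ => ?_⟩
  rw [IntermediateField.fixingSubgroup_sup]
  have hσK : σ ∈ K.fixingSubgroup := hK.2 q hq A hA hσ
  refine ⟨hσK, roots_mem_fixingSubgroup_adjoin ?_⟩
  rw [IntermediateField.mem_fixingSubgroup_iff] at hσK
  obtain ⟨c, hcK, hc0, hu⟩ := h q hq A hA
  have ha0 : a ≠ 0 := by
    intro h0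
    apply hu.2.2
    rw [h0, zero_div]
  have hb0 : b ≠ 0 := by
    intro h0
    apply ha0
    rw [← hb, h0, zero_pow hn.ne']
  have hβ : IsUnitAt A (b / c) := isUnitAt_of_pow hn (by rw [div_pow, hb]; exact hu)
  have hζ : (σ b / b) ^ n = 1 := by
    rw [div_pow, ← map_pow, hb, hσK a ha, div_self ha0]
  have h1 := ((mem_inertiaSubgroupIn_iff A σ).mp hσ).2 (b / c) hβ.1
  have h2 : σ (b / c) - b / c = (σ b / b - 1) * (b / c) := by
    rw [map_div₀, hσK c hcK]
    field_simp
  rw [h2, ValuationSubring.mem_nonunits_iff, map_mul, roots_valuation_eq_one hβ, mul_one,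
    ← ValuationSubring.mem_nonunits_iff] at h1
  have hqn : ¬ (q : ℕ) ∣ n := fun hd => hq (hnS q hd)
  have h3 := roots_eq_one_of_sub_one_mem_nonunits q.2 hA hn hqn hζ h1
  rwa [div_eq_one_iff_eq hb0] at h3

/-- roots of unity of order divisible only by primes in `S` generate `S`-unramified fields -/
theorem isUnramifiedOutside_adjoin_rootOfUnity {S : Finset Nat.Primes} {n : ℕ} (hn : 0 < n)
    (hnS : ∀ q : Nat.Primes, (q : ℕ) ∣ n → q ∈ S) {ζ : Qbar} (hζ : ζ ^ n = 1) :
    (IntermediateField.adjoin ℚ {ζ}).IsUnramifiedOutside S := by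
  have h := isUnramifiedOutside_adjoin_root (IntermediateField.isUnramifiedOutside_bot S) hn hnS
    (a := 1) (b := ζ) (one_mem _) hζ (fun q _ A _ => ⟨1, one_mem _, one_ne_zero, by
      simp only [one_pow, div_one]
      exact ⟨one_mem _, by simp [one_mem], one_ne_zero⟩⟩)
  rwa [bot_sup_eq] at h

end Fermat.Agent.S55.P
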