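import Fermat.Agent.S55.P.Trans
import Fermat.Agent.S14.T1.DictA

/-!
# S55, block (P): package P-DC2, primes of `K` over `q` = double cosets
-/

set_option autoImplicit false

namespace Fermat.Agent.S55.P

open NumberField IsDedekindDomain ExtCitation
open scoped Pointwise

local notation "Qbar" => AlgebraicClosure ℚ
local notation "GQ" => (AlgebraicClosure ℚ ≃ₐ[ℚ] AlgebraicClosure ℚ)

theorem exists_primeUnder_eq (K : IntermediateField ℚ Qbar) [FiniteDimensional ℚ K]
    (q : ℕ) [Fact q.Prime] (P : Ideal (𝓞 K)) [P.IsPrime] (hP : (q : 𝓞 K) ∈ P) :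
    ∃ g : GQ, primeUnder K (g • padicPlace q) = P := by
  obtain ⟨A, hA⟩ := Fermat.Agent.S14.exists_valuationSubring_over K P inferInstance
  have hAq : A.LiesOverPrime q := by
    have h1 := (hA _).1 hP
    have h : (((q : 𝓞 K) : K) : Qbar) = (q : Qbar) := by simp
    rw [h] at h1
    exact h1
  obtain ⟨g, hg⟩ := exists_smul_padicPlace_eq q A hAq
  refine ⟨g, ?_⟩
  rw [hg]
  ext x
  rw [mem_primeUnder, hA]

theorem primeUnder_smul_eq_iff (K : IntermediateField ℚ Qbar) {q : ℕ} (hq : q.Prime)
    (A : ValuationSubring Qbar) (hA : A.LiesOverPrime q) (g g' : GQ) :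
    primeUnder K (g • A) = primeUnder K (g' • A) ↔
      ∃ u ∈ K.fixingSubgroup, ∃ d ∈ A.decompositionSubgroup ℚ, g' = u * g * d := by
  constructor
  · intro h
    obtain ⟨u, hu, hug⟩ := exists_smul_eq_of_primeUnder_eq K hq (g • A) (g' • A)
      ((liesOverPrime_smul_iff A g q).2 hA) h
    refine ⟨u, hu, g⁻¹ * u⁻¹ * g', ?_, by group⟩
    show (g⁻¹ * u⁻¹ * g') • A = A
    rw [mul_smul, ← hug, mul_smul, inv_smul_smul, inv_smul_smul]
  · rintro ⟨u, hu, d, hd, rfl⟩
    have hd' : d • A = A := hd
    rw [mul_smul, hd', mul_smul, primeUnder_smul_of_mem_fixingSubgroup K _ hu]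

/-- the number of primes of `K` over `q` is the number of double cosets -/
theorem card_primes_eq_card_doset (K : IntermediateField ℚ Qbar) [FiniteDimensional ℚ K]
    (q : ℕ) [Fact q.Prime] :
    Nat.card {P : Ideal (𝓞 K) // P.IsPrime ∧ (q : 𝓞 K) ∈ P} =
      Nat.card (DoubleCoset.Quotient (K.fixingSubgroup : Set GQ)
        ((padicPlace q).decompositionSubgroup ℚ : Set GQ)) := by
  have hq : q.Prime := Fact.out
  have hA := padicPlace_liesOverPrime q
  let f : DoubleCoset.Quotient (K.fixingSubgroup : Set GQ)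
      ((padicPlace q).decompositionSubgroup ℚ : Set GQ) →
      {P : Ideal (𝓞 K) // P.IsPrime ∧ (q : 𝓞 K) ∈ P} :=
    Quotient.lift (fun g : GQ => ⟨primeUnder K (g • padicPlace q), primeUnder_isPrime K _,
      natCast_mem_primeUnder ((liesOverPrime_smul_iff _ g q).2 hA)⟩) (by
      intro g g' h
      apply Subtype.ext
      exact (primeUnder_smul_eq_iff K hq _ hA g g').2 (DoubleCoset.rel_iff.1 h))
  refine (Nat.card_congr (Equiv.ofBijective f ⟨?_, ?_⟩)).symm
  · intro x y
    induction x using Quotient.inductionOn with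
    | h g =>
      induction y using Quotient.inductionOn with
      | h g' =>
        intro h
        apply Quotient.sound
        exact DoubleCoset.rel_iff.2
          ((primeUnder_smul_eq_iff K hq _ hA g g').1 (congrArg Subtype.val h))
  · rintro ⟨P, hP, hqP⟩
    obtain ⟨g, hg⟩ := exists_primeUnder_eq K q P hqP
    exact ⟨Quotient.mk _ g, Subtype.ext hg⟩

end Fermat.Agent.S55.P
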