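import Fermat.Agent.S55.P.Hens

/-!
# S55, block (P): the Galois group of `ℚ̄` over the henselisation is the decomposition group
-/

set_option autoImplicit false

namespace Fermat.Agent.S55.P

open scoped NNReal Pointwise

local notation "Qbar" => AlgebraicClosure ℚ
local notation "GQ" => (AlgebraicClosure ℚ ≃ₐ[ℚ] AlgebraicClosure ℚ)

variable (q : ℕ) [Fact q.Prime]

theorem mem_padicPlace_iff_norm {x : Qbar} : x ∈ padicPlace q ↔ ‖padicEmbedding q x‖ ≤ 1 := by
  rw [mem_padicPlace_iff]
  exact Iff.rfl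

theorem apply_mem_padicPlace {σ : GQ} (hσ : σ ∈ (padicPlace q).decompositionSubgroup ℚ) {x : Qbar}
    (hx : x ∈ padicPlace q) : σ x ∈ padicPlace q := by
  have h1 : σ • padicPlace q = padicPlace q := hσ
  rw [← h1]
  exact (ValuationSubring.mem_smul_pointwise_iff_exists _ _ _).mpr ⟨x, hx, rfl⟩

theorem norm_padicEmbedding_natCast : ‖padicEmbedding q (q : Qbar)‖ = (q : ℝ)⁻¹ := by
  rw [map_natCast]
  have h1 : ((q : ℕ) : PadicAlgCl q) = algebraMap ℚ_[q] (PadicAlgCl q) (q : ℚ_[q]) := by simp
  rw [h1]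
  have h2 := PadicAlgCl.norm_extends q (q : ℚ_[q])
  rw [h2, Padic.norm_p]

/-- The decomposition group fixes the henselisation. -/
theorem decompositionSubgroup_le :
    (padicPlace q).decompositionSubgroup ℚ ≤ (hens q).fixingSubgroup := by
  intro σ hσ
  rw [IntermediateField.mem_fixingSubgroup_iff]
  intro x hx
  obtain ⟨y, hy⟩ := (mem_hens_iff q).mp hx
  have hq1 : (1 : ℝ) < q := by exact_mod_cast (Fact.out : q.Prime).one_lt
  have hq0 : (0 : ℝ) < q := by linarith
  have hqne : (q : Qbar) ≠ 0 := by exact_mod_cast (Fact.out : q.Prime).ne_zero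
  -- `σ x - x` is divisible by every power of `q`
  have key : ∀ k : ℕ, ‖padicEmbedding q (σ x - x)‖ ≤ ((q : ℝ)⁻¹) ^ k := by
    intro k
    obtain ⟨r, hr⟩ := Padic.rat_dense q y (ε := ((q : ℝ)⁻¹) ^ k) (by positivity)
    have hz : (x - (r : Qbar)) / (q : Qbar) ^ k ∈ padicPlace q := by
      rw [mem_padicPlace_iff_norm, map_div₀, map_pow, norm_div, norm_pow,
        norm_padicEmbedding_natCast, map_sub, ← hy, map_ratCast]
      have h1 : algebraMap ℚ_[q] (PadicAlgCl q) y - (r : PadicAlgCl q)
          = algebraMap ℚ_[q] (PadicAlgCl q) (y - (r : ℚ_[q])) := by simp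
      have h2 := PadicAlgCl.norm_extends q (y - (r : ℚ_[q]))
      rw [h1, h2, div_le_one (by positivity)]
      exact hr.le
    have hz' := apply_mem_padicPlace q hσ hz
    have hdiff : σ ((x - (r : Qbar)) / (q : Qbar) ^ k) - (x - (r : Qbar)) / (q : Qbar) ^ k
        ∈ padicPlace q := (padicPlace q).sub_mem hz' hz
    have h3 : σ ((x - (r : Qbar)) / (q : Qbar) ^ k) - (x - (r : Qbar)) / (q : Qbar) ^ k
        = (σ x - x) / (q : Qbar) ^ k := by
      rw [map_div₀, map_pow, map_natCast, map_sub, map_ratCast]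
      ring
    rw [h3, mem_padicPlace_iff_norm, map_div₀, map_pow, norm_div, norm_pow,
      norm_padicEmbedding_natCast, div_le_one (by positivity)] at hdiff
    exact hdiff
  have hlim : Filter.Tendsto (fun k : ℕ => ((q : ℝ)⁻¹) ^ k) Filter.atTop (nhds 0) :=
    tendsto_pow_atTop_nhds_zero_of_lt_one (by positivity) (inv_lt_one_of_one_lt₀ hq1)
  have h0 : ‖padicEmbedding q (σ x - x)‖ ≤ 0 := ge_of_tendsto' hlim key
  have h1 : padicEmbedding q (σ x - x) = 0 := norm_le_zero_iff.mp h0
  have h2 : σ x - x = 0 := by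
    apply padicEmbedding_injective q
    rw [h1, map_zero]
  exact sub_eq_zero.mp h2

/-- The Galois group of `ℚ̄` over the henselisation is the decomposition group. -/
theorem fixingSubgroup_hens :
    (hens q).fixingSubgroup = (padicPlace q).decompositionSubgroup ℚ := by
  refine le_antisymm ?_ (decompositionSubgroup_le q)
  rw [← range_localGaloisToGlobal]
  rintro _ ⟨τ, rfl⟩
  exact localGaloisToGlobal_mem_decompositionSubgroup q τ

theorem range_localGaloisToGlobal_eq_decompositionSubgroup :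
    (localGaloisToGlobal q).range = (padicPlace q).decompositionSubgroup ℚ := by
  rw [range_localGaloisToGlobal, fixingSubgroup_hens]

/-- Elements of the decomposition group are isometries. -/
theorem norm_padicEmbedding_apply {σ : GQ} (hσ : σ ∈ (padicPlace q).decompositionSubgroup ℚ)
    (x : Qbar) : ‖padicEmbedding q (σ x)‖ = ‖padicEmbedding q x‖ := by
  rw [← range_localGaloisToGlobal_eq_decompositionSubgroup] at hσ
  obtain ⟨τ, rfl⟩ := hσ
  rw [padicEmbedding_localGaloisToGlobal]
  exact congrArg NNReal.toReal (nnnorm_padicAlgCl_algEquiv q τ _)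

theorem mem_nonunits_padicPlace_iff {x : Qbar} :
    x ∈ (padicPlace q).nonunits ↔ ‖padicEmbedding q x‖ < 1 := by
  rcases eq_or_ne x 0 with rfl | hx
  · simp
  have hv : 0 < (padicPlace q).valuation x :=
    zero_lt_iff.mpr ((padicPlace q).valuation.ne_zero_iff.mpr hx)
  have hn : 0 < ‖padicEmbedding q x‖ := by
    rw [norm_pos_iff]
    intro h
    exact hx (padicEmbedding_injective q (by rw [h, map_zero]))
  have h1 : x⁻¹ ∈ padicPlace q ↔ 1 ≤ (padicPlace q).valuation x := by
    rw [← (padicPlace q).valuation_le_one_iff, map_inv₀, inv_le_one₀ hv]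
  have h2 : x⁻¹ ∈ padicPlace q ↔ 1 ≤ ‖padicEmbedding q x‖ := by
    rw [mem_padicPlace_iff_norm, map_inv₀, norm_inv, inv_le_one₀ hn]
  rw [ValuationSubring.mem_nonunits_iff, ← not_le, ← not_le, ← h1, ← h2]

theorem padicPlace_liesOverPrime : (padicPlace q).LiesOverPrime q := by
  have hq1 : (1 : ℝ) < q := by exact_mod_cast (Fact.out : q.Prime).one_lt
  change (q : Qbar) ∈ (padicPlace q).nonunits
  rw [mem_nonunits_padicPlace_iff, norm_padicEmbedding_natCast]
  exact inv_lt_one_of_one_lt₀ hq1

section Transitive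

open Fermat.Agent.Lib.FrobeniusExists

attribute [local instance] galAction

variable {L : Type*} [Field L] [Algebra ℚ L]

theorem apply_mem_of_smul_eq' [Algebra.IsAlgebraic ℚ L] (A B : ValuationSubring L) (τ : L ≃ₐ[ℚ] L)
    (hτ : τ • (IsLocalRing.maximalIdeal A).comap (incl A)
        = (IsLocalRing.maximalIdeal B).comap (incl B)) (x : L) (hx : x ∈ A) : τ x ∈ B := by
  have : CharZero L := algebraRat.charZero L
  have : Algebra.IsAlgebraic ℤ L :=
    (IsFractionRing.comap_isAlgebraic_iff (A := ℤ) (K := ℚ) (C := L)).mpr inferInstance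
  obtain ⟨s, b, hs, hsb⟩ := exists_mul_eq A x hx
  have h1 : τ s * τ x = τ b := by rw [← map_mul, hsb]
  have h2 : (τ s : L) ∉ B.nonunits := by
    rw [← coe_galAction_smul, ← mem_comap_incl_iff, ← hτ, Ideal.smul_mem_pointwise_smul_iff,
      mem_comap_incl_iff]
    exact hs
  have h3 : B.valuation (τ s) = 1 :=
    le_antisymm ((B.valuation_le_one_iff _).mpr (integralClosure_le B (τ • s)))
      (not_lt.mp fun h => h2 ((B.mem_nonunits_iff).mpr h))
  rw [← B.valuation_le_one_iff]
  have h4 := congrArg B.valuation h1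
  rw [map_mul, h3, one_mul] at h4
  rw [h4]
  exact (B.valuation_le_one_iff _).mpr (integralClosure_le B (τ • b))

/-- The Galois group permutes transitively the valuation subrings over a given prime. -/
theorem exists_smul_eq_of_liesOverPrime_aux [IsGalois ℚ L] (A B : ValuationSubring L) {ℓ : ℕ}
    (hℓ : ℓ.Prime) (hA : A.LiesOverPrime ℓ) (hB : B.LiesOverPrime ℓ) :
    ∃ g : L ≃ₐ[ℚ] L, g • A = B := by
  classical
  let P : Ideal ℤ := Ideal.span {(ℓ : ℤ)}
  have hPmax : P.IsMaximal :=
    PrincipalIdealRing.isMaximal_of_irreducible (Nat.prime_iff_prime_int.mp hℓ).irreducible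
  have hunder : ∀ C : ValuationSubring L, C.LiesOverPrime ℓ →
      ((IsLocalRing.maximalIdeal C).comap (incl C)).under ℤ = P := by
    intro C hC
    refine (hPmax.eq_of_le (Ideal.IsPrime.ne_top (Ideal.comap_isPrime _ _)) ?_).symm
    rw [Ideal.span_singleton_le_iff_mem, Ideal.mem_comap, mem_comap_incl_iff]
    have hC' : (ℓ : L) ∈ C.nonunits := hC
    simpa using hC'
  let _ : TopologicalSpace (integralClosure ℤ L) := ⊥
  have : DiscreteTopology (integralClosure ℤ L) := ⟨rfl⟩
  have : ContinuousSMul (L ≃ₐ[ℚ] L) (integralClosure ℤ L) := by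
    rw [continuousSMul_iff_stabilizer_isOpen]
    intro b
    convert stabilizer_isOpen_of_isIntegral (K := ℚ) (b : L) using 1
    ext g
    simp only [SetLike.mem_coe, MulAction.mem_stabilizer_iff]
    exact Subtype.ext_iff
  have := isInvariant_integralClosure (L := L)
  obtain ⟨g, hg⟩ := Algebra.IsInvariant.exists_smul_of_under_eq_of_profinite
    (A := ℤ) (G := L ≃ₐ[ℚ] L) ((IsLocalRing.maximalIdeal A).comap (incl A))
    ((IsLocalRing.maximalIdeal B).comap (incl B)) ((hunder A hA).trans (hunder B hB).symm)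
  refine ⟨g, le_antisymm ?_ ?_⟩
  · intro y hy
    obtain ⟨x, hx, rfl⟩ := (ValuationSubring.mem_smul_pointwise_iff_exists _ _ _).mp hy
    exact apply_mem_of_smul_eq' A B g hg.symm x hx
  · rw [ValuationSubring.subset_pointwise_smul_iff]
    intro y hy
    obtain ⟨x, hx, rfl⟩ := (ValuationSubring.mem_smul_pointwise_iff_exists _ _ _).mp hy
    exact apply_mem_of_smul_eq' B A g⁻¹ (inv_smul_eq_iff.mpr hg) x hx

end Transitive

/-- `Gal(ℚ̄/ℚ)` permutes transitively the valuation subrings over a given prime. -/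
theorem exists_smul_eq_of_liesOverPrime (A B : ValuationSubring Qbar) {ℓ : ℕ} (hℓ : ℓ.Prime)
    (hA : A.LiesOverPrime ℓ) (hB : B.LiesOverPrime ℓ) : ∃ g : GQ, g • A = B :=
  have := Fermat.Agent.Lib.FrobeniusExists.isGalois_algebraicClosure_rat
  exists_smul_eq_of_liesOverPrime_aux A B hℓ hA hB

/-- Every valuation subring of `ℚ̄` over `q` is conjugate to `padicPlace q`. -/
theorem exists_smul_padicPlace_eq (B : ValuationSubring Qbar) (hB : B.LiesOverPrime q) :
    ∃ g : GQ, g • padicPlace q = B :=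
  exists_smul_eq_of_liesOverPrime _ B Fact.out (padicPlace_liesOverPrime q) hB

end Fermat.Agent.S55.P
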