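import Fermat.Agent.S55.P.Close
import Fermat.Agent.S55.P.HensDec
import Fermat.Agent.S55.P.Doset
import Fermat.Agent.S14.T1.DictA

/-!
# S55, block (P): package P-DC3, valuations of `K` versus places of `ℚ̄`
-/

set_option autoImplicit false

namespace Fermat.Agent.S55.P

open NumberField IsDedekindDomain ExtCitation
open scoped Pointwise

local notation "Qbar" => AlgebraicClosure ℚ
local notation "GQ" => (AlgebraicClosure ℚ ≃ₐ[ℚ] AlgebraicClosure ℚ)

theorem valuation_coe_eq_one_of_notMem {K : IntermediateField ℚ Qbar} {A : ValuationSubring Qbar}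
    {d : 𝓞 K} (hd : d ∉ primeUnder K A) : A.valuation ((d : K) : Qbar) = 1 := by
  rw [mem_primeUnder, ValuationSubring.mem_nonunits_iff, not_lt] at hd
  exact le_antisymm ((A.valuation_le_one_iff _).mpr (coe_mem_valuationSubring K A d)) hd

theorem mem_of_valuation_le_one {K : IntermediateField ℚ Qbar} [NumberField K]
    {v : HeightOneSpectrum (𝓞 K)} {A : ValuationSubring Qbar} (hv : v.asIdeal = primeUnder K A)
    {x : K} (h : v.valuation K x ≤ 1) : (x : Qbar) ∈ A := by
  obtain ⟨n, ⟨d, hd⟩, hnd⟩ := v.exists_primeCompl_mul_eq_of_integer x h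
  have hd' : d ∉ primeUnder K A := by rw [← hv]; exact hd
  have h1 : (x : Qbar) * ((d : K) : Qbar) = ((n : K) : Qbar) := by
    have := congrArg (algebraMap K Qbar) hnd
    simpa using this
  have h2 := congrArg A.valuation h1
  rw [map_mul, valuation_coe_eq_one_of_notMem hd', mul_one] at h2
  rw [← A.valuation_le_one_iff, h2]
  exact (A.valuation_le_one_iff _).mpr (coe_mem_valuationSubring K A n)

theorem mem_nonunits_of_valuation_lt_one {K : IntermediateField ℚ Qbar} [NumberField K]
    {v : HeightOneSpectrum (𝓞 K)} {A : ValuationSubring Qbar} (hv : v.asIdeal = primeUnder K A)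
    {x : K} (h : v.valuation K x < 1) : (x : Qbar) ∈ A.nonunits := by
  obtain ⟨n, ⟨d, hd⟩, hnd⟩ := v.exists_primeCompl_mul_eq_of_integer x h.le
  have hd' : d ∉ primeUnder K A := by rw [← hv]; exact hd
  have h1 : (x : Qbar) * ((d : K) : Qbar) = ((n : K) : Qbar) := by
    have := congrArg (algebraMap K Qbar) hnd
    simpa using this
  have h2 := congrArg A.valuation h1
  rw [map_mul, valuation_coe_eq_one_of_notMem hd', mul_one] at h2
  have h3 := congrArg (v.valuation K) hnd
  rw [map_mul, (v.valuation_eq_one_iff_notMem (K := K)).mpr hd, mul_one] at h3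
  have h4 : n ∈ primeUnder K A := by
    rw [← hv, ← v.valuation_lt_one_iff_mem (K := K), ← h3]
    exact h
  rw [ValuationSubring.mem_nonunits_iff, h2, ← ValuationSubring.mem_nonunits_iff]
  exact mem_primeUnder.mp h4

theorem valuation_le_one_iff (K : IntermediateField ℚ Qbar) [NumberField K]
    (v : HeightOneSpectrum (𝓞 K)) (A : ValuationSubring Qbar) (hv : v.asIdeal = primeUnder K A)
    (x : K) : v.valuation K x ≤ 1 ↔ (x : Qbar) ∈ A := by
  refine ⟨mem_of_valuation_le_one hv, fun h => ?_⟩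
  by_contra hx
  rw [not_le] at hx
  have hx0 : x ≠ 0 := by
    rintro rfl
    simp at hx
  have h1 : v.valuation K x⁻¹ < 1 := by
    rw [map_inv₀]
    exact inv_lt_one_of_one_lt₀ hx
  have h2 := mem_nonunits_of_valuation_lt_one hv h1
  rw [ValuationSubring.mem_nonunits_iff] at h2
  rw [← A.valuation_le_one_iff] at h
  have h3 : A.valuation ((x : Qbar) * ((x⁻¹ : K) : Qbar)) < 1 := by
    rw [map_mul, mul_comm]
    exact mul_lt_one_of_lt_of_le h2 h
  have h4 : (x : Qbar) * ((x⁻¹ : K) : Qbar) = 1 := by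
    have : (x : Qbar) ≠ 0 := by simpa using hx0
    simp [this]
  rw [h4, map_one] at h3
  exact lt_irrefl _ h3

theorem valuation_lt_one_iff (K : IntermediateField ℚ Qbar) [NumberField K]
    (v : HeightOneSpectrum (𝓞 K)) (A : ValuationSubring Qbar) (hv : v.asIdeal = primeUnder K A)
    (x : K) : v.valuation K x < 1 ↔ (x : Qbar) ∈ A.nonunits := by
  refine ⟨mem_nonunits_of_valuation_lt_one hv, fun h => ?_⟩
  by_contra hx
  rw [not_lt] at hx
  have hx0 : x ≠ 0 := by
    rintro rfl
    simp at hx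
  have h1 : v.valuation K x⁻¹ ≤ 1 := by
    rw [map_inv₀]
    exact inv_le_one_of_one_le₀ hx
  have h2 := mem_of_valuation_le_one hv h1
  rw [ValuationSubring.mem_nonunits_iff] at h
  rw [← A.valuation_le_one_iff] at h2
  have h3 : A.valuation ((x : Qbar) * ((x⁻¹ : K) : Qbar)) < 1 := by
    rw [map_mul]
    exact mul_lt_one_of_lt_of_le h h2
  have h4 : (x : Qbar) * ((x⁻¹ : K) : Qbar) = 1 := by
    have : (x : Qbar) ≠ 0 := by simpa using hx0
    simp [this]
  rw [h4, map_one] at h3
  exact lt_irrefl _ h3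

theorem valuation_eq_one_iff (K : IntermediateField ℚ Qbar) [NumberField K]
    (v : HeightOneSpectrum (𝓞 K)) (A : ValuationSubring Qbar) (hv : v.asIdeal = primeUnder K A)
    (x : K) : v.valuation K x = 1 ↔ IsUnitAt A (x : Qbar) := by
  rw [isUnitAt_iff, le_antisymm_iff, valuation_le_one_iff K v A hv,
    ← not_lt (a := v.valuation K x), valuation_lt_one_iff K v A hv]

/-- closeness at `A` implies `v`-adic closeness -/
theorem valuation_le_exp_of_close (K : IntermediateField ℚ Qbar) [NumberField K]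
    (v : HeightOneSpectrum (𝓞 K)) (A : ValuationSubring Qbar) (hv : v.asIdeal = primeUnder K A)
    {q : ℕ} (hA : A.LiesOverPrime q) (m : ℕ) (x y : K) (h : Close A q m (x : Qbar) (y : Qbar)) :
    v.valuation K (x - y) ≤ WithZero.exp (-(m : ℤ)) := by
  obtain ⟨z, hz, hxy⟩ := h
  have hqm : v.valuation K ((q : K) ^ m) ≤ WithZero.exp (-(m : ℤ)) := by
    have h1 : ((q : K) ^ m) = algebraMap (𝓞 K) K ((q : 𝓞 K) ^ m) := by simp
    rw [h1, v.valuation_of_algebraMap, v.intValuation_le_pow_iff_mem, hv]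
    exact Ideal.pow_mem_pow (natCast_mem_primeUnder hA) m
  rcases eq_or_ne ((q : K) ^ m) 0 with h0 | h0
  · have h1 : ((q : Qbar) ^ m) = 0 := by
      have := congrArg (algebraMap K Qbar) h0
      simpa using this
    rw [h1, zero_mul] at hxy
    have h2 : x - y = 0 := by
      apply Subtype.ext
      simpa using hxy
    rw [h2, map_zero]
    exact zero_le
  · have h1 : ((q : Qbar) ^ m) ≠ 0 := by
      intro h
      apply h0
      apply Subtype.ext
      simpa using h
    have h2 : (((x - y) / (q : K) ^ m : K) : Qbar) = z := by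
      have : (((x - y) / (q : K) ^ m : K) : Qbar) = ((x : Qbar) - y) / (q : Qbar) ^ m := by simp
      rw [this, hxy, mul_div_cancel_left₀ _ h1]
    have h3 : v.valuation K ((x - y) / (q : K) ^ m) ≤ 1 := by
      rw [valuation_le_one_iff K v A hv, h2]
      exact hz
    have h4 : x - y = (q : K) ^ m * ((x - y) / (q : K) ^ m) := by
      rw [mul_div_cancel₀ _ h0]
    rw [h4, map_mul]
    exact (mul_le_of_le_one_right' h3).trans hqm

/-- `e ≤ [K : ℚ]` -/
theorem exp_neg_finrank_le_valuation (K : IntermediateField ℚ Qbar) [NumberField K]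
    (v : HeightOneSpectrum (𝓞 K)) (A : ValuationSubring Qbar) (hv : v.asIdeal = primeUnder K A)
    {q : ℕ} (hq : q.Prime) (hA : A.LiesOverPrime q) :
    WithZero.exp (-(Module.finrank ℚ K : ℤ)) ≤ v.valuation K (q : K) := by
  set n := Module.finrank ℚ K with hn
  by_contra hlt
  rw [not_le] at hlt
  have hq0 : (q : 𝓞 K) ≠ 0 := by exact_mod_cast hq.ne_zero
  have h1 : (q : K) = algebraMap (𝓞 K) K (q : 𝓞 K) := by simp
  have hmem : (q : 𝓞 K) ∈ v.asIdeal ^ (n + 1) := by
    rw [← v.intValuation_le_pow_iff_mem, ← v.valuation_of_algebraMap (K := K)]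
    change v.valuation K (algebraMap (𝓞 K) K (q : 𝓞 K)) ≤ _
    rw [← h1]
    obtain ⟨a, ha⟩ : ∃ a : ℤ, v.valuation K (q : K) = WithZero.exp a := by
      refine ⟨WithZero.log (v.valuation K (q : K)), (WithZero.exp_log ?_).symm⟩
      rw [Valuation.ne_zero_iff]
      exact_mod_cast hq.ne_zero
    rw [ha, WithZero.exp_lt_exp] at hlt
    rw [ha, WithZero.exp_le_exp]
    push_cast
    omega
  have hNq : Ideal.absNorm (Ideal.span {(q : 𝓞 K)}) = q ^ n := by
    rw [Ideal.absNorm_span_singleton]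
    have : (q : 𝓞 K) = algebraMap ℤ (𝓞 K) (q : ℤ) := by simp
    rw [this, Algebra.norm_algebraMap, RingOfIntegers.rank]
    simp [Int.natAbs_pow, hn]
  have hd1 : Ideal.absNorm (v.asIdeal ^ (n + 1)) ∣ q ^ n := by
    rw [← hNq]
    exact Ideal.absNorm_dvd_absNorm_of_le ((Ideal.span_singleton_le_iff_mem _).mpr hmem)
  have hd2 : Ideal.absNorm v.asIdeal ∣ q ^ n := by
    rw [← hNq]
    refine Ideal.absNorm_dvd_absNorm_of_le ((Ideal.span_singleton_le_iff_mem _).mpr ?_)
    rw [hv]
    exact natCast_mem_primeUnder hA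
  obtain ⟨f, -, hf⟩ := (Nat.dvd_prime_pow hq).mp hd2
  have hf0 : f ≠ 0 := by
    rintro rfl
    rw [pow_zero, Ideal.absNorm_eq_one_iff] at hf
    exact v.isPrime.ne_top hf
  rw [map_pow, hf, ← pow_mul, Nat.pow_dvd_pow_iff_le_right hq.one_lt] at hd1
  have : n + 1 ≤ f * (n + 1) := Nat.le_mul_of_pos_left _ (Nat.pos_of_ne_zero hf0)
  omega

/-- `v`-adic closeness implies closeness at `A` (`e ≤ [K : ℚ]`) -/
theorem close_of_valuation_le_exp (K : IntermediateField ℚ Qbar) [NumberField K]
    (v : HeightOneSpectrum (𝓞 K)) (A : ValuationSubring Qbar) (hv : v.asIdeal = primeUnder K A)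
    {q : ℕ} (hq : q.Prime) (hA : A.LiesOverPrime q) (m : ℕ) (x y : K)
    (h : v.valuation K (x - y) ≤ WithZero.exp (-((m * Module.finrank ℚ K : ℕ) : ℤ))) :
    Close A q m (x : Qbar) (y : Qbar) := by
  have hq0 : (q : K) ≠ 0 := by exact_mod_cast hq.ne_zero
  have hle := exp_neg_finrank_le_valuation K v A hv hq hA
  have h1 : WithZero.exp (-((m * Module.finrank ℚ K : ℕ) : ℤ))
      = WithZero.exp (-(Module.finrank ℚ K : ℤ)) ^ m := by
    rw [← WithZero.exp_nsmul]
    congr 1
    push_cast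
    simp
  have h2 : v.valuation K (x - y) ≤ v.valuation K ((q : K) ^ m) := by
    rw [map_pow]
    refine h.trans ?_
    rw [h1]
    exact pow_le_pow_left₀ zero_le hle m
  have h3 : v.valuation K ((x - y) / (q : K) ^ m) ≤ 1 := by
    rw [map_div₀]
    exact div_le_one_of_le₀ h2 zero_le
  rw [valuation_le_one_iff K v A hv] at h3
  refine ⟨_, h3, ?_⟩
  have hq0' : (q : Qbar) ^ m ≠ 0 := pow_ne_zero _ (by exact_mod_cast hq.ne_zero)
  have : (((x - y) / (q : K) ^ m : K) : Qbar) = ((x : Qbar) - y) / (q : Qbar) ^ m := by simp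
  rw [this, mul_div_cancel₀ _ hq0']

/-- every prime of `K` comes from a place of `ℚ̄` -/
theorem exists_place_over (K : IntermediateField ℚ Qbar) [NumberField K]
    (v : HeightOneSpectrum (𝓞 K)) :
    ∃ (q : ℕ) (_ : Fact q.Prime) (g : GQ), v.asIdeal = primeUnder K (g • padicPlace q) := by
  obtain ⟨q, hq, hqv⟩ := Fermat.Agent.S14.exists_prime_mem v.asIdeal v.isPrime v.ne_bot
  have : Fact q.Prime := ⟨hq⟩
  have := v.isPrime
  obtain ⟨g, hg⟩ := exists_primeUnder_eq K q v.asIdeal hqv
  exact ⟨q, ⟨hq⟩, g, hg.symm⟩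

end Fermat.Agent.S55.P
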