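import Fermat.Agent.S55.P.Close
import Fermat.Agent.S55.P.Val
import Fermat.Agent.S14.T1.DictB

/-!
# S55, block (P): package P-PL4, the inertia field is unramified
-/

set_option autoImplicit false

namespace Fermat.Agent.S55.P

open NumberField IsDedekindDomain ExtCitation
open scoped Pointwise

local notation "Qbar" => AlgebraicClosure ℚ
local notation "GQ" => (AlgebraicClosure ℚ ≃ₐ[ℚ] AlgebraicClosure ℚ)

section NumberFieldLevel

variable {E : Type*} [Field E] [NumberField E] [IsGalois ℚ E]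

/-- the ramification index of `P` over the inertia field equals the ramification index over `ℚ`:
both are the order of the inertia group. -/
theorem ramificationIdx_inertiaField_eq (P : Ideal (𝓞 E)) [P.IsPrime] (hP : P ≠ ⊥) :
    P.ramificationIdx (𝓞 (FixedPoints.intermediateField (Ideal.inertia Gal(E/ℚ) P) :
      IntermediateField ℚ E)) = P.ramificationIdx ℤ := by
  set I : Subgroup Gal(E/ℚ) := Ideal.inertia Gal(E/ℚ) P with hI
  set T : IntermediateField ℚ E := FixedPoints.intermediateField I with hT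
  have i1 : IsGaloisGroup I T E := inferInstance
  have i3 : IsGaloisGroup I (𝓞 T) (𝓞 E) := IsGaloisGroup.of_isFractionRing I (𝓞 T) (𝓞 E) T E
  -- the primes below
  set u : Ideal (𝓞 T) := P.under (𝓞 T) with hu
  set p : Ideal ℤ := P.under ℤ with hp
  have hu0 : u ≠ ⊥ := mt Ideal.eq_bot_of_comap_eq_bot hP
  have hp0 : p ≠ ⊥ := mt Ideal.eq_bot_of_comap_eq_bot hP
  have hup : u.IsPrime := inferInstance
  have hpp : p.IsPrime := inferInstance
  have hum : u.IsMaximal := hup.isMaximal hu0
  have hpm : p.IsMaximal := hpp.isMaximal hp0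
  have f1 : Finite (𝓞 T ⧸ u) := Ideal.finiteQuotientOfFreeOfNeBot u hu0
  have f2 : Finite (ℤ ⧸ p) := Ideal.finiteQuotientOfFreeOfNeBot p hp0
  have f3 : Finite u.ResidueField := inferInstance
  have f4 : Finite p.ResidueField := inferInstance
  have h1 := Ideal.card_inertia_eq_ramificationIdxIn (G := Gal(E/ℚ)) p P
  have h2 := Ideal.card_inertia_eq_ramificationIdxIn (G := I) u P
  rw [Ideal.ramificationIdxIn_eq_ramificationIdx p P Gal(E/ℚ)] at h1
  rw [Ideal.ramificationIdxIn_eq_ramificationIdx u P I] at h2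
  rw [← h1, ← h2]
  have h3 : Ideal.inertia I P = ⊤ := by
    rw [eq_top_iff]
    intro σ _
    exact σ.2
  rw [h3, Subgroup.card_top]

open WithZero in
/-- an element of a finite Galois extension `E/ℚ` fixed by the inertia group of `w` has the
`w`-adic valuation of a power of `q`. -/
theorem exists_zpow_valuation_eq_one (w : HeightOneSpectrum (𝓞 E)) {q : ℕ} (hq : q.Prime)
    (hqw : (q : 𝓞 E) ∈ w.asIdeal) (t : E) (ht : t ≠ 0)
    (hfix : ∀ τ ∈ Ideal.inertia Gal(E/ℚ) w.asIdeal, τ t = t) :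
    ∃ n : ℤ, w.valuation E (t * (q : E) ^ (-n)) = 1 := by
  have hwp : w.asIdeal.IsPrime := w.isPrime
  set T : IntermediateField ℚ E :=
    FixedPoints.intermediateField (Ideal.inertia Gal(E/ℚ) w.asIdeal) with hT
  have he := ramificationIdx_inertiaField_eq w.asIdeal w.ne_bot
  set u : HeightOneSpectrum (𝓞 T) := w.under (𝓞 T) with hu
  set p : HeightOneSpectrum ℤ := w.under ℤ with hp
  have l1 : w.asIdeal.LiesOver u.asIdeal := ⟨rfl⟩
  have l2 : w.asIdeal.LiesOver p.asIdeal := ⟨rfl⟩
  have e1 := Ideal.ramificationIdx'_eq_ramificationIdx u.asIdeal w.asIdeal u.ne_bot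
  have e2 := Ideal.ramificationIdx'_eq_ramificationIdx p.asIdeal w.asIdeal p.ne_bot
  set e : ℕ := w.asIdeal.ramificationIdx ℤ with hedef
  rw [he] at e1
  let t' : T := ⟨t, fun τ => hfix τ.1 τ.2⟩
  have ht' : t' ≠ 0 := fun h => ht (congrArg Subtype.val h)
  have v1 := HeightOneSpectrum.valuation_liesOver E u w t'
  have v2 := HeightOneSpectrum.valuation_liesOver E p w (q : ℚ)
  rw [e1] at v1
  rw [e2] at v2
  have hpq : p.asIdeal = Ideal.span {(q : ℤ)} := by
    have : Fact q.Prime := ⟨hq⟩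
    have hmax : (Ideal.span {(q : ℤ)}).IsMaximal := Int.ideal_span_isMaximal_of_prime q
    refine (hmax.eq_of_le p.isPrime.ne_top ?_).symm
    rw [Ideal.span_singleton_le_iff_mem]
    show algebraMap ℤ (𝓞 E) (q : ℤ) ∈ w.asIdeal
    simpa using hqw
  have v3 : p.valuation ℚ (q : ℚ) = exp (-1 : ℤ) := by
    have := p.valuation_of_algebraMap (K := ℚ) (q : ℤ)
    rw [HeightOneSpectrum.intValuation_singleton p (by exact_mod_cast hq.ne_zero) hpq] at this
    simpa using this
  have v4 : u.valuation T t' ≠ 0 := (Valuation.ne_zero_iff _).mpr ht'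
  refine ⟨-(log (u.valuation T t')), ?_⟩
  have a1 : algebraMap T E t' = t := rfl
  have a2 : algebraMap ℚ E (q : ℚ) = (q : E) := by simp
  rw [a1] at v1
  rw [a2, v3] at v2
  rw [map_mul, map_zpow₀, ← v1, ← v2, neg_neg]
  conv_lhs => rw [← exp_log v4]
  set m : ℤ := log (u.valuation T t')
  rw [← exp_nsmul, ← exp_nsmul, ← exp_zsmul, ← exp_add, ← exp_zero, exp_inj]
  simp
  ring

end NumberFieldLevel

/-- **The inertia field is unramified**: an element fixed by the inertia group of `A` is a power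
of `q` times a unit at `A`. -/
theorem exists_zpow_mul_isUnitAt (A : ValuationSubring Qbar) {q : ℕ} (hq : q.Prime)
    (hA : A.LiesOverPrime q) {x : Qbar} (hx : x ≠ 0)
    (hfix : ∀ σ ∈ A.inertiaSubgroupIn ℚ, σ x = x) :
    ∃ n : ℤ, IsUnitAt A (x * (q : Qbar) ^ (-n)) := by
  have hgalQ : IsGalois ℚ Qbar := Fermat.Agent.Lib.FrobeniusExists.isGalois_algebraicClosure_rat
  have hfd0 : FiniteDimensional ℚ (IntermediateField.adjoin ℚ {x}) :=
    IntermediateField.adjoin.finiteDimensional (Algebra.IsIntegral.isIntegral x)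
  let E : IntermediateField ℚ Qbar :=
    IntermediateField.normalClosure ℚ (IntermediateField.adjoin ℚ {x}) Qbar
  have hle : IntermediateField.adjoin ℚ {x} ≤ E := IntermediateField.le_normalClosure _
  have hxE : x ∈ E := hle (IntermediateField.mem_adjoin_simple_self ℚ x)
  have hfd : FiniteDimensional ℚ E := normalClosure.is_finiteDimensional ℚ _ Qbar
  have hnor : Normal ℚ E := normalClosure.normal ℚ _ Qbar
  have hgal : IsGalois ℚ E := isGalois_iff.mpr ⟨inferInstance, hnor⟩
  have hnf : NumberField E := { to_charZero := inferInstance, to_finiteDimensional := hfd }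
  let w : HeightOneSpectrum (𝓞 E) :=
    ⟨primeUnder E A, inferInstance, primeUnder_ne_bot hq.ne_zero hA⟩
  obtain ⟨n, hn⟩ := exists_zpow_valuation_eq_one w hq (natCast_mem_primeUnder hA) ⟨x, hxE⟩
    (fun h => hx (congrArg Subtype.val h)) (fun τ hτ => by
      obtain ⟨σ, hσ, hσE⟩ := Fermat.Agent.S14.lift_inertia E A τ (fun y => by
        have h1 : τ • y - y ∈ primeUnder E A := hτ y
        rw [mem_primeUnder] at h1
        exact h1)
      apply Subtype.ext
      rw [← hσE]
      exact hfix σ hσ)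
  refine ⟨n, ?_⟩
  have h2 := (valuation_eq_one_iff E w A rfl _).mp hn
  have h3 : (((⟨x, hxE⟩ : E) * (q : E) ^ (-n) : E) : Qbar) = x * (q : Qbar) ^ (-n) := by
    push_cast
    rfl
  rwa [h3] at h2

theorem exists_zpow_mul_isUnitAt_of_isUnramifiedOutside {S : Finset Nat.Primes}
    {F : IntermediateField ℚ Qbar} (hF : F.IsUnramifiedOutside S) {q : Nat.Primes} (hq : q ∉ S)
    (A : ValuationSubring Qbar) (hA : A.LiesOverPrime (q : ℕ)) {x : Qbar} (hxF : x ∈ F)
    (hx : x ≠ 0) : ∃ n : ℤ, IsUnitAt A (x * ((q : ℕ) : Qbar) ^ (-n)) :=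
  exists_zpow_mul_isUnitAt A q.2 hA hx fun σ hσ =>
    (IntermediateField.mem_fixingSubgroup_iff _ _).1 (hF.2 q hq A hA hσ) x hxF

/-- uniqueness of the exponent -/
theorem zpow_isUnitAt_iff (A : ValuationSubring Qbar) {q : ℕ} (hA : A.LiesOverPrime q) (n : ℤ) :
    IsUnitAt A ((q : Qbar) ^ n) ↔ n = 0 := by
  constructor
  · rintro ⟨h1, h2, h3⟩
    have hq1 : A.valuation (q : Qbar) < 1 := (ValuationSubring.mem_nonunits_iff A).mp hA
    have hv1 : A.valuation ((q : Qbar) ^ n) ≤ 1 := (A.valuation_le_one_iff _).mpr h1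
    have hv2 : A.valuation ((q : Qbar) ^ n)⁻¹ ≤ 1 := (A.valuation_le_one_iff _).mpr h2
    have hv0 : A.valuation ((q : Qbar) ^ n) ≠ 0 := (Valuation.ne_zero_iff _).mpr h3
    rw [map_inv₀, inv_le_one₀ (zero_lt_iff.mpr hv0)] at hv2
    have hv : A.valuation ((q : Qbar) ^ n) = 1 := le_antisymm hv1 hv2
    rw [map_zpow₀] at hv
    exact (zpow_eq_one_iff_right₀ zero_le hq1.ne).mp hv
  · rintro rfl
    rw [zpow_zero]
    exact ⟨A.one_mem, by simp [A.one_mem], one_ne_zero⟩

end Fermat.Agent.S55.P
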