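import Fermat.Agent.S55.P.Defs
import Fermat.Agent.S05.Inertia

/-!
# S55, block (P): package P-PL1a, valuation subrings of `ℚ̄` under the Galois action
-/

set_option autoImplicit false

namespace Fermat.Agent.S55.P

open NumberField IsDedekindDomain ExtCitation
open scoped Pointwise

local notation "Qbar" => AlgebraicClosure ℚ
local notation "GQ" => (AlgebraicClosure ℚ ≃ₐ[ℚ] AlgebraicClosure ℚ)

variable (A : ValuationSubring Qbar)

theorem mem_smul_iff (g : GQ) (x : Qbar) : x ∈ g • A ↔ g⁻¹ x ∈ A :=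
  ValuationSubring.mem_pointwise_smul_iff_inv_smul_mem

theorem apply_mem_smul_iff (g : GQ) (x : Qbar) : g x ∈ g • A ↔ x ∈ A := by
  rw [mem_smul_iff]
  have : g⁻¹ (g x) = x := g.symm_apply_apply x
  rw [this]

/-- elementary description of the nonunits. -/
theorem mem_nonunits_iff_inv_notMem (x : Qbar) : x ∈ A.nonunits ↔ x = 0 ∨ x⁻¹ ∉ A := by
  rw [ValuationSubring.mem_nonunits_iff]
  rcases eq_or_ne x 0 with rfl | hx
  · simp
  · rw [← ValuationSubring.valuation_le_one_iff, not_le,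
      Valuation.one_lt_val_iff _ (inv_ne_zero hx), inv_inv]
    simp [hx]

theorem mem_nonunits_smul_iff (g : GQ) (x : Qbar) :
    x ∈ (g • A).nonunits ↔ g⁻¹ x ∈ A.nonunits := by
  rw [mem_nonunits_iff_inv_notMem, mem_nonunits_iff_inv_notMem, mem_smul_iff, map_inv₀,
    map_eq_zero_iff _ (g⁻¹).injective]

theorem liesOverPrime_smul_iff (g : GQ) (q : ℕ) :
    (g • A).LiesOverPrime q ↔ A.LiesOverPrime q := by
  unfold ValuationSubring.LiesOverPrime
  rw [mem_nonunits_smul_iff, map_natCast]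

theorem mem_decompositionSubgroup_iff (σ : GQ) :
    σ ∈ A.decompositionSubgroup ℚ ↔ ∀ x, σ x ∈ A ↔ x ∈ A := by
  constructor
  · intro h x
    have h1 : σ • A = A := h
    conv_lhs => rw [← h1]
    exact apply_mem_smul_iff A σ x
  · intro h
    show σ • A = A
    ext y
    rw [mem_smul_iff, ← h (σ⁻¹ y)]
    have : σ (σ⁻¹ y) = y := σ.apply_symm_apply y
    rw [this]

theorem apply_mem_nonunits_iff {σ : GQ} (hσ : σ ∈ A.decompositionSubgroup ℚ) (x : Qbar) :
    σ x ∈ A.nonunits ↔ x ∈ A.nonunits := by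
  rw [mem_nonunits_iff_inv_notMem, mem_nonunits_iff_inv_notMem, ← map_inv₀,
    (mem_decompositionSubgroup_iff A σ).mp hσ, map_eq_zero_iff _ σ.injective]

theorem decompositionSubgroup_smul (g : GQ) :
    (g • A).decompositionSubgroup ℚ =
      (A.decompositionSubgroup ℚ).map (MulAut.conj g).toMonoidHom :=
  MulAction.stabilizer_smul_eq_stabilizer_map_conj g A

theorem mem_inertiaSubgroupIn_iff (σ : GQ) :
    σ ∈ A.inertiaSubgroupIn ℚ ↔
      σ ∈ A.decompositionSubgroup ℚ ∧ ∀ x ∈ A, σ x - x ∈ A.nonunits := by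
  constructor
  · intro h
    refine ⟨?_, (Fermat.Agent.S05.inertia_spec A σ h).2⟩
    obtain ⟨τ, -, rfl⟩ := h
    exact τ.2
  · rintro ⟨hd, h⟩
    refine ⟨⟨σ, hd⟩, ?_, rfl⟩
    change MulSemiringAction.toRingAut (A.decompositionSubgroup ℚ)
      (IsLocalRing.ResidueField A) ⟨σ, hd⟩ = 1
    ext x
    change (⟨σ, hd⟩ : A.decompositionSubgroup ℚ) • x = x
    obtain ⟨a, rfl⟩ := IsLocalRing.residue_surjective x
    have h1 : (⟨σ, hd⟩ : A.decompositionSubgroup ℚ) • IsLocalRing.residue A a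
        = IsLocalRing.residue A ((⟨σ, hd⟩ : A.decompositionSubgroup ℚ) • a) := rfl
    rw [h1, ← sub_eq_zero, ← map_sub, IsLocalRing.residue_eq_zero_iff]
    exact ValuationSubring.coe_mem_nonunits_iff.mp (h a a.2)

theorem inertiaSubgroupIn_le_decompositionSubgroup :
    A.inertiaSubgroupIn ℚ ≤ A.decompositionSubgroup ℚ :=
  fun σ hσ => ((mem_inertiaSubgroupIn_iff A σ).mp hσ).1

theorem inertiaSubgroupIn_smul (g : GQ) :
    (g • A).inertiaSubgroupIn ℚ = (A.inertiaSubgroupIn ℚ).map (MulAut.conj g).toMonoidHom := by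
  ext σ
  rw [Subgroup.mem_map_equiv, mem_inertiaSubgroupIn_iff, mem_inertiaSubgroupIn_iff,
    decompositionSubgroup_smul, Subgroup.mem_map_equiv, MulAut.conj_symm_apply]
  refine and_congr_right fun _ => ?_
  constructor
  · intro h y hy
    have h1 := h (g y) ((apply_mem_smul_iff A g y).mpr hy)
    rw [mem_nonunits_smul_iff, map_sub] at h1
    have h2 : g⁻¹ (g y) = y := g.symm_apply_apply y
    rw [h2] at h1
    exact h1
  · intro h x hx
    have h1 := h (g⁻¹ x) ((mem_smul_iff A g x).mp hx)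
    rw [mem_nonunits_smul_iff, map_sub]
    have h2 : (g⁻¹ * σ * g) (g⁻¹ x) = g⁻¹ (σ x) := by
      show g⁻¹ (σ (g (g⁻¹ x))) = g⁻¹ (σ x)
      have : g (g⁻¹ x) = x := g.apply_symm_apply x
      rw [this]
    rw [h2] at h1
    exact h1

theorem conj_mem_inertiaSubgroupIn {d i : GQ} (hd : d ∈ A.decompositionSubgroup ℚ)
    (hi : i ∈ A.inertiaSubgroupIn ℚ) : d * i * d⁻¹ ∈ A.inertiaSubgroupIn ℚ := by
  have h1 : d • A = A := hd
  have h2 := inertiaSubgroupIn_smul A d
  rw [h1] at h2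
  rw [h2]
  exact ⟨i, hi, rfl⟩

end Fermat.Agent.S55.P
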