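import Fermat.Agent.S55.P.Places

/-!
# S55, block (P): package P-PL2, stability of `IsUnramifiedOutside`, Galois correspondence for levels
-/

set_option autoImplicit false

namespace Fermat.Agent.S55.P

open NumberField IsDedekindDomain ExtCitation
open scoped Pointwise

local notation "Qbar" => AlgebraicClosure ℚ
local notation "GQ" => (AlgebraicClosure ℚ ≃ₐ[ℚ] AlgebraicClosure ℚ)

theorem fixingSubgroup_map (F : IntermediateField ℚ Qbar) (g : GQ) :
    (F.map (g : Qbar →ₐ[ℚ] Qbar)).fixingSubgroup =
      F.fixingSubgroup.map (MulAut.conj g).toMonoidHom := by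
  ext σ
  rw [IntermediateField.mem_fixingSubgroup_iff, Subgroup.mem_map]
  constructor
  · intro h
    refine ⟨g⁻¹ * σ * g, ?_, ?_⟩
    · rw [IntermediateField.mem_fixingSubgroup_iff]
      intro x hx
      have h1 : σ (g x) = g x := h (g x) ⟨x, hx, rfl⟩
      change g⁻¹ (σ (g x)) = x
      rw [h1]
      exact g.symm_apply_apply x
    · simp [mul_assoc]
  · rintro ⟨τ, hτ, rfl⟩ _ ⟨x, hx, rfl⟩
    rw [IntermediateField.mem_fixingSubgroup_iff] at hτ
    change g (τ (g⁻¹ (g x))) = g x
    have h1 : g⁻¹ (g x) = x := g.symm_apply_apply x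
    rw [h1, hτ x hx]

theorem isUnramifiedOutside_map {S : Finset Nat.Primes} {F : IntermediateField ℚ Qbar}
    (hF : F.IsUnramifiedOutside S) (g : GQ) :
    (F.map (g : Qbar →ₐ[ℚ] Qbar)).IsUnramifiedOutside S := by
  have := hF.1
  refine ⟨IntermediateField.finiteDimensional_map _, fun q hq A hA => ?_⟩
  have h1 : A = g • (g⁻¹ • A) := by rw [smul_smul, mul_inv_cancel, one_smul]
  have h2 : (g⁻¹ • A).LiesOverPrime (q : ℕ) := (liesOverPrime_smul_iff A g⁻¹ q).mpr hA
  rw [h1, inertiaSubgroupIn_smul, fixingSubgroup_map]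
  exact Subgroup.map_mono (hF.2 q hq _ h2)

theorem isUnramifiedOutside_normalClosure {S : Finset Nat.Primes} {F : IntermediateField ℚ Qbar}
    (hF : F.IsUnramifiedOutside S) :
    (IntermediateField.normalClosure ℚ F Qbar).IsUnramifiedOutside S := by
  have : IsGalois ℚ Qbar := Fermat.Agent.Lib.FrobeniusExists.isGalois_algebraicClosure_rat
  have := hF.1
  refine ⟨inferInstance, fun q hq A hA => ?_⟩
  rw [← IntermediateField.le_iff_le]
  refine le_trans (le_of_eq (IntermediateField.normalClosure_def'' F)) ?_
  refine iSup_le fun g => ?_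
  rw [IntermediateField.le_iff_le]
  exact (isUnramifiedOutside_map hF g).2 q hq A hA

/-- cofinality of the Galois levels -/
theorem exists_isGalois_isUnramifiedOutside {S : Finset Nat.Primes} {F : IntermediateField ℚ Qbar}
    (hF : F.IsUnramifiedOutside S) :
    ∃ E : IntermediateField ℚ Qbar, F ≤ E ∧ E.IsUnramifiedOutside S ∧ IsGalois ℚ E ∧
      E.fixingSubgroup.Normal := by
  have : IsGalois ℚ Qbar := Fermat.Agent.Lib.FrobeniusExists.isGalois_algebraicClosure_rat
  have hnor : Normal ℚ (IntermediateField.normalClosure ℚ F Qbar) := normalClosure.normal ℚ F Qbar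
  have hgal : IsGalois ℚ (IntermediateField.normalClosure ℚ F Qbar) :=
    isGalois_iff.mpr ⟨inferInstance, hnor⟩
  exact ⟨IntermediateField.normalClosure ℚ F Qbar, IntermediateField.le_normalClosure F,
    isUnramifiedOutside_normalClosure hF, hgal, inferInstance⟩

/-- an open subgroup for the `S`-levels is the fixing subgroup of an `S`-unramified field -/
theorem exists_isUnramifiedOutside_of_le {S : Finset Nat.Primes} {F : IntermediateField ℚ Qbar}
    (hF : F.IsUnramifiedOutside S) (U : Subgroup GQ) (hU : F.fixingSubgroup ≤ U) :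
    ∃ K : IntermediateField ℚ Qbar, K.IsUnramifiedOutside S ∧ K ≤ F ∧ K.fixingSubgroup = U := by
  have : IsGalois ℚ Qbar := Fermat.Agent.Lib.FrobeniusExists.isGalois_algebraicClosure_rat
  have := hF.1
  have hopen : IsOpen (U : Set GQ) := Subgroup.isOpen_mono hU F.fixingSubgroup_isOpen
  have hclosed : IsClosed (U : Set GQ) := Subgroup.isClosed_of_isOpen U hopen
  have hfix : (IntermediateField.fixedField U).fixingSubgroup = U :=
    InfiniteGalois.fixingSubgroup_fixedField (k := ℚ) (K := Qbar) ⟨U, hclosed⟩
  have hle : IntermediateField.fixedField U ≤ F := by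
    conv_rhs => rw [← InfiniteGalois.fixedField_fixingSubgroup F]
    intro x hx
    rw [IntermediateField.mem_fixedField_iff] at hx ⊢
    exact fun σ hσ => hx σ (hU hσ)
  exact ⟨IntermediateField.fixedField U, hF.of_le hle, hle, hfix⟩

/-- the index of the fixing subgroup is the degree -/
theorem index_fixingSubgroup (K : IntermediateField ℚ Qbar) [FiniteDimensional ℚ K] :
    K.fixingSubgroup.index = Module.finrank ℚ K := by
  have : IsGalois ℚ Qbar := Fermat.Agent.Lib.FrobeniusExists.isGalois_algebraicClosure_rat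
  exact (IntermediateField.finrank_eq_fixingSubgroup_index Qbar K).symm

theorem relIndex_fixingSubgroup {K L : IntermediateField ℚ Qbar} [FiniteDimensional ℚ L]
    (h : K ≤ L) :
    letI := (IntermediateField.inclusion h).toRingHom.toAlgebra
    L.fixingSubgroup.relIndex K.fixingSubgroup = Module.finrank K L := by
  let _ := (IntermediateField.inclusion h).toRingHom.toAlgebra
  have hK : FiniteDimensional ℚ K :=
    FiniteDimensional.of_injective (IntermediateField.inclusion h).toLinearMap
      (IntermediateField.inclusion_injective h)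
  have htower : IsScalarTower ℚ K L :=
    IsScalarTower.of_algebraMap_eq fun x => ((IntermediateField.inclusion h).commutes x).symm
  have h1 := Subgroup.relIndex_mul_index (IntermediateField.fixingSubgroup_antitone h)
  rw [index_fixingSubgroup, index_fixingSubgroup, ← Module.finrank_mul_finrank ℚ K L,
    mul_comm] at h1
  exact Nat.eq_of_mul_eq_mul_left Module.finrank_pos h1

/-- a finite dimensional smooth representation which is unramified outside `S` is trivial on an
`S`-level (this is how the hypotheses `hsm`, `hMur` of the frozen statement are used). -/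
theorem exists_level_of_smooth {k : Type} [Field k] {S : Finset Nat.Primes}
    (M : Rep k GQ) [FiniteDimensional k M]
    (hsm : ∀ m : M, ∃ F : IntermediateField ℚ Qbar, FiniteDimensional ℚ F ∧
      ∀ s ∈ F.fixingSubgroup, M.ρ s m = m)
    (hMur : ∀ q : Nat.Primes, q ∉ S → ∀ A : ValuationSubring Qbar,
      A.LiesOverPrime (q : ℕ) → ∀ g ∈ A.inertiaSubgroupIn ℚ, M.ρ g = 1) :
    ∃ F : IntermediateField ℚ Qbar, F.IsUnramifiedOutside S ∧ IsGalois ℚ F ∧
      ∀ s ∈ F.fixingSubgroup, M.ρ s = 1 := by
  have : IsGalois ℚ Qbar := Fermat.Agent.Lib.FrobeniusExists.isGalois_algebraicClosure_rat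
  choose F hFfd hF using hsm
  let b := Module.finBasis k M
  -- the kernel is open
  have hopen : IsOpen ((M.ρ.ker : Subgroup GQ) : Set GQ) := by
    have h1 : (⨆ i, F (b i)).fixingSubgroup ≤ M.ρ.ker := by
      intro s hs
      rw [MonoidHom.mem_ker]
      refine b.ext fun i => ?_
      exact hF (b i) s (IntermediateField.fixingSubgroup_antitone (le_iSup (fun i => F (b i)) i) hs)
    have h2 : FiniteDimensional ℚ (⨆ i, F (b i) : IntermediateField ℚ Qbar) :=
      IntermediateField.finiteDimensional_iSup_of_finite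
    exact Subgroup.isOpen_mono h1 (IntermediateField.fixingSubgroup_isOpen _)
  have hclosed : IsClosed ((M.ρ.ker : Subgroup GQ) : Set GQ) := Subgroup.isClosed_of_isOpen _ hopen
  have hL : (IntermediateField.fixedField M.ρ.ker).fixingSubgroup = M.ρ.ker :=
    InfiniteGalois.fixingSubgroup_fixedField (k := ℚ) (K := Qbar) ⟨M.ρ.ker, hclosed⟩
  obtain ⟨hfd, hgal⟩ :=
    (InfiniteGalois.isOpen_and_normal_iff_finite_and_isGalois
      (IntermediateField.fixedField M.ρ.ker)).mp
      ⟨by rw [hL]; exact hopen, by rw [hL]; infer_instance⟩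
  refine ⟨IntermediateField.fixedField M.ρ.ker, ⟨hfd, fun q hq A hA g hg => ?_⟩, hgal,
    fun s hs => ?_⟩
  · rw [hL, MonoidHom.mem_ker]
    exact hMur q hq A hA g hg
  · rw [hL, MonoidHom.mem_ker] at hs
    exact hs

end Fermat.Agent.S55.P
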