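import Fermat.Agent.S55.P.Places
import Fermat.Agent.S55.P.HensDec
import Fermat.Agent.S14.T1.DictB

/-!
# S55, block (P): package P-DC1, transitivity of `Gal(ℚ̄/K)` on the places over a prime of `K`
-/

set_option autoImplicit false

namespace Fermat.Agent.S55.P

open NumberField IsDedekindDomain ExtCitation
open scoped Pointwise

local notation "Qbar" => AlgebraicClosure ℚ
local notation "GQ" => (AlgebraicClosure ℚ ≃ₐ[ℚ] AlgebraicClosure ℚ)

section TransAux

open Fermat.Agent.Lib.FrobeniusExists Fermat.Agent.S13.Mink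

attribute [local instance] galAction

variable {Ω : Type*} [Field Ω] [Algebra ℚ Ω]

/-- generic form of `exists_smul_eq_of_primeUnder_eq` -/
theorem exists_smul_eq_of_nonunits_iff_aux [IsGalois ℚ Ω] (E : IntermediateField ℚ Ω)
    (A B : ValuationSubring Ω)
    (h : ∀ x : Ω, x ∈ E → IsIntegral ℤ x → (x ∈ A.nonunits ↔ x ∈ B.nonunits)) :
    ∃ u ∈ E.fixingSubgroup, u • A = B := by
  classical
  set H : Subgroup (Ω ≃ₐ[ℚ] Ω) := E.fixingSubgroup with hHdef
  have hH : IsClosed (H : Set (Ω ≃ₐ[ℚ] Ω)) := InfiniteGalois.fixingSubgroup_isClosed E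
  have : (idealOf A).IsPrime := Ideal.comap_isPrime _ _
  have : (idealOf B).IsPrime := Ideal.comap_isPrime _ _
  have : CompactSpace H := isCompact_iff_compactSpace.mp hH.isCompact
  let _ : TopologicalSpace (integralClosure ℤ Ω) := ⊥
  have : DiscreteTopology (integralClosure ℤ Ω) := ⟨rfl⟩
  have hcont : ContinuousSMul (Ω ≃ₐ[ℚ] Ω) (integralClosure ℤ Ω) := by
    rw [continuousSMul_iff_stabilizer_isOpen]
    intro b
    convert stabilizer_isOpen_of_isIntegral (K := ℚ) (b : Ω) using 1
    ext g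
    simp only [SetLike.mem_coe, MulAction.mem_stabilizer_iff]
    exact Subtype.ext_iff
  have : ContinuousSMul H (integralClosure ℤ Ω) := inferInstance
  have hinv : Algebra.IsInvariant (fixedAlg H) (integralClosure ℤ Ω) H :=
    ⟨fun b hb => ⟨⟨b, hb⟩, rfl⟩⟩
  have hcomm : SMulCommClass H (fixedAlg H) (integralClosure ℤ Ω) := ⟨fun h c b => by
    change h • ((c : integralClosure ℤ Ω) * b) = (c : integralClosure ℤ Ω) * (h • b)
    rw [smul_mul', c.2 h]⟩
  have hunder : (idealOf A).under (fixedAlg H) = (idealOf B).under (fixedAlg H) := by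
    ext x
    simp only [Ideal.under_def, Ideal.mem_comap]
    change (x : integralClosure ℤ Ω) ∈ idealOf A ↔ (x : integralClosure ℤ Ω) ∈ idealOf B
    rw [idealOf, idealOf, mem_comap_incl_iff, mem_comap_incl_iff]
    exact h _ (Fermat.Agent.S14.DictB.mem_of_fixed E _ x.2) (x : integralClosure ℤ Ω).2
  obtain ⟨g, hg⟩ := Algebra.IsInvariant.exists_smul_of_under_eq_of_profinite
    (A := fixedAlg H) (G := H) (idealOf A) (idealOf B) hunder
  have hg' : idealOf B = (g : Ω ≃ₐ[ℚ] Ω) • idealOf A := hg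
  refine ⟨g, g.2, le_antisymm ?_ ?_⟩
  · intro y hy
    obtain ⟨x, hx, rfl⟩ := (ValuationSubring.mem_smul_pointwise_iff_exists _ _ _).mp hy
    exact apply_mem_of_smul_eq' A B g hg'.symm x hx
  · rw [ValuationSubring.subset_pointwise_smul_iff]
    intro y hy
    obtain ⟨x, hx, rfl⟩ := (ValuationSubring.mem_smul_pointwise_iff_exists _ _ _).mp hy
    exact apply_mem_of_smul_eq' B A (g : Ω ≃ₐ[ℚ] Ω)⁻¹ (inv_smul_eq_iff.mpr hg') x hx

end TransAux

/-- two places of `ℚ̄` over the same prime of `K` are conjugate under `Gal(ℚ̄/K)` -/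
theorem exists_smul_eq_of_primeUnder_eq (K : IntermediateField ℚ Qbar) {q : ℕ} (hq : q.Prime)
    (A B : ValuationSubring Qbar) (hA : A.LiesOverPrime q)
    (h : primeUnder K A = primeUnder K B) : ∃ u ∈ K.fixingSubgroup, u • A = B := by
  have hgal : IsGalois ℚ Qbar := Fermat.Agent.Lib.FrobeniusExists.isGalois_algebraicClosure_rat
  refine exists_smul_eq_of_nonunits_iff_aux K A B ?_
  intro x hxK hxint
  have hint : IsIntegral ℤ (⟨x, hxK⟩ : K) :=
    (isIntegral_algebraMap_iff (B := Qbar) (algebraMap K Qbar).injective).mp hxint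
  have h1 := mem_primeUnder (K := K) (A := A) (x := ⟨⟨x, hxK⟩, hint⟩)
  have h2 := mem_primeUnder (K := K) (A := B) (x := ⟨⟨x, hxK⟩, hint⟩)
  rw [h] at h1
  exact h1.symm.trans h2

theorem primeUnder_smul_of_mem_fixingSubgroup (K : IntermediateField ℚ Qbar)
    (A : ValuationSubring Qbar) {u : GQ} (hu : u ∈ K.fixingSubgroup) :
    primeUnder K (u • A) = primeUnder K A := by
  ext x
  rw [mem_primeUnder, mem_primeUnder]
  have hfix : u (((x : K) : Qbar)) = ((x : K) : Qbar) :=
    (IntermediateField.mem_fixingSubgroup_iff _ _).1 hu _ (x : K).2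
  -- membership in `u • A` for fixed elements
  have key : ∀ y : Qbar, u y = y → (y ∈ u • A ↔ y ∈ A) := by
    intro y hy
    constructor
    · intro hm
      obtain ⟨z, hz, hzy⟩ := (ValuationSubring.mem_smul_pointwise_iff_exists _ _ _).mp hm
      have : u z = u y := by rw [hy]; exact hzy
      rw [← u.injective this]
      exact hz
    · intro hm
      exact (ValuationSubring.mem_smul_pointwise_iff_exists _ _ _).mpr ⟨y, hm, hy⟩
  rcases eq_or_ne (((x : K) : Qbar)) 0 with h0 | h0
  · rw [h0]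
    simp
  have hnon : ∀ (C : ValuationSubring Qbar) (y : Qbar), y ≠ 0 → (y ∈ C.nonunits ↔ y⁻¹ ∉ C) := by
    intro C y hy
    rw [ValuationSubring.mem_nonunits_iff, ← C.valuation_le_one_iff, map_inv₀, not_le]
    have hv : 0 < C.valuation y := zero_lt_iff.mpr (C.valuation.ne_zero_iff.mpr hy)
    rw [one_lt_inv₀ hv]
  rw [hnon _ _ h0, hnon _ _ h0, key _ (by rw [map_inv₀, hfix])]

end Fermat.Agent.S55.P
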