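import Fermat.Agent.S55.P.Places

/-!
# S55, block (P): package P-PL1b, the relations `Close`, `IsUnitAt`
-/

set_option autoImplicit false

namespace Fermat.Agent.S55.P

open NumberField IsDedekindDomain ExtCitation
open scoped Pointwise

local notation "Qbar" => AlgebraicClosure ℚ
local notation "GQ" => (AlgebraicClosure ℚ ≃ₐ[ℚ] AlgebraicClosure ℚ)

variable {A : ValuationSubring Qbar} {q m : ℕ}

theorem Close.refl (x : Qbar) : Close A q m x x :=
  ⟨0, A.zero_mem, by simp⟩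

theorem Close.symm {x y : Qbar} (h : Close A q m x y) : Close A q m y x := by
  obtain ⟨z, hz, h⟩ := h
  exact ⟨-z, A.neg_mem _ hz, by rw [mul_neg, ← h]; ring⟩

theorem Close.trans {x y z : Qbar} (h : Close A q m x y) (h' : Close A q m y z) :
    Close A q m x z := by
  obtain ⟨u, hu, h⟩ := h
  obtain ⟨v, hv, h'⟩ := h'
  exact ⟨u + v, A.add_mem _ _ hu hv, by rw [mul_add, ← h, ← h']; ring⟩

theorem natCast_mem_valuationSubring (n : ℕ) : (n : Qbar) ∈ A := natCast_mem A n

theorem Close.mono {x y : Qbar} {m' : ℕ} (hm : m' ≤ m) (h : Close A q m x y) :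
    Close A q m' x y := by
  obtain ⟨u, hu, h⟩ := h
  refine ⟨(q : Qbar) ^ (m - m') * u,
    A.mul_mem _ _ (pow_mem (natCast_mem_valuationSubring q) _) hu, ?_⟩
  rw [h, ← mul_assoc, ← pow_add, Nat.add_sub_cancel' hm]

theorem Close.add {x y x' y' : Qbar} (h : Close A q m x y) (h' : Close A q m x' y') :
    Close A q m (x + x') (y + y') := by
  obtain ⟨u, hu, h⟩ := h
  obtain ⟨v, hv, h'⟩ := h'
  exact ⟨u + v, A.add_mem _ _ hu hv, by rw [mul_add, ← h, ← h']; ring⟩

theorem Close.mul {x y x' y' : Qbar} (h : Close A q m x y) (h' : Close A q m x' y')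
    (hx : x ∈ A) (hy' : y' ∈ A) : Close A q m (x * x') (y * y') := by
  obtain ⟨u, hu, h⟩ := h
  obtain ⟨v, hv, h'⟩ := h'
  refine ⟨x * v + u * y', A.add_mem _ _ (A.mul_mem _ _ hx hv) (A.mul_mem _ _ hu hy'), ?_⟩
  have : x * x' - y * y' = x * (x' - y') + (x - y) * y' := by ring
  rw [this, h, h']
  ring

theorem Close.mul_left {x y : Qbar} (h : Close A q m x y) {c : Qbar} (hc : c ∈ A) :
    Close A q m (c * x) (c * y) := by
  obtain ⟨u, hu, h⟩ := h
  refine ⟨c * u, A.mul_mem _ _ hc hu, ?_⟩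
  rw [← mul_sub, h]
  ring

theorem Close.map {x y : Qbar} (h : Close A q m x y) {σ : GQ}
    (hσ : σ ∈ A.decompositionSubgroup ℚ) : Close A q m (σ x) (σ y) := by
  obtain ⟨u, hu, h⟩ := h
  refine ⟨σ u, ((mem_decompositionSubgroup_iff A σ).mp hσ u).mpr hu, ?_⟩
  rw [← map_sub, h, map_mul, map_pow, map_natCast]

theorem Close.smul {x y : Qbar} (h : Close A q m x y) (g : GQ) :
    Close (g • A) q m (g x) (g y) := by
  obtain ⟨u, hu, h⟩ := h
  refine ⟨g u, (apply_mem_smul_iff A g u).mpr hu, ?_⟩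
  rw [← map_sub, h, map_mul, map_pow, map_natCast]

theorem isUnitAt_iff {x : Qbar} : IsUnitAt A x ↔ x ∈ A ∧ x ∉ A.nonunits := by
  rw [mem_nonunits_iff_inv_notMem]
  unfold IsUnitAt
  constructor
  · rintro ⟨h1, h2, h3⟩
    exact ⟨h1, fun h => h.elim h3 (fun h => h h2)⟩
  · rintro ⟨h1, h2⟩
    push Not at h2
    exact ⟨h1, h2.2, h2.1⟩

/-- elements close to `1` are units -/
theorem Close.isUnitAt {x : Qbar} (hA : A.LiesOverPrime q) (hm : 0 < m) (h : Close A q m x 1) :
    IsUnitAt A x := by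
  obtain ⟨u, hu, h⟩ := h
  have hq : (q : Qbar) ∈ A.nonunits := hA
  -- `q ^ m * u` is a nonunit
  have hqv : A.valuation (q : Qbar) < 1 := (ValuationSubring.mem_nonunits_iff A).mp hq
  have huv : A.valuation u ≤ 1 := (ValuationSubring.valuation_le_one_iff A u).mpr hu
  have hqm : A.valuation ((q : Qbar) ^ m) < 1 := by
    rw [map_pow]
    exact pow_lt_one₀ zero_le hqv hm.ne'
  have h1 : A.valuation ((q : Qbar) ^ m * u) < 1 := by
    rw [map_mul]
    exact mul_lt_one_of_lt_of_le hqm huv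
  have hx : x = 1 + (q : Qbar) ^ m * u := by rw [← h]; ring
  have hxv : A.valuation x = 1 := by
    rw [hx]
    have := Valuation.map_add_eq_of_lt_left (v := A.valuation) (x := (1 : Qbar))
      (y := (q : Qbar) ^ m * u) (by rw [map_one]; exact h1)
    rw [this, map_one]
  rw [isUnitAt_iff]
  refine ⟨(ValuationSubring.valuation_le_one_iff A x).mp hxv.le, ?_⟩
  rw [ValuationSubring.mem_nonunits_iff, hxv]
  exact lt_irrefl _

theorem Close.inv {x : Qbar} (hA : A.LiesOverPrime q) (hm : 0 < m) (h : Close A q m x 1) :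
    Close A q m x⁻¹ 1 := by
  obtain ⟨h1, h2, h3⟩ := h.isUnitAt hA hm
  obtain ⟨u, hu, h⟩ := h
  refine ⟨-(x⁻¹ * u), A.neg_mem _ (A.mul_mem _ _ h2 hu), ?_⟩
  have : x⁻¹ - 1 = -(x⁻¹ * (x - 1)) := by
    field_simp
    ring
  rw [this, h]
  ring

theorem Close.mul_one {x y : Qbar} (hA : A.LiesOverPrime q) (hm : 0 < m) (h : Close A q m x 1)
    (h' : Close A q m y 1) : Close A q m (x * y) 1 := by
  have := Close.mul h h' (h.isUnitAt hA hm).1 A.one_mem
  rwa [_root_.mul_one] at this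

theorem Close.prod_one {ι : Type*} (s : Finset ι) (f : ι → Qbar) (hA : A.LiesOverPrime q)
    (hm : 0 < m) (h : ∀ i ∈ s, Close A q m (f i) 1) : Close A q m (∏ i ∈ s, f i) 1 := by
  classical
  induction s using Finset.induction_on with
  | empty => simpa using Close.refl (A := A) (q := q) (m := m) (1 : Qbar)
  | insert a s ha ih =>
    rw [Finset.prod_insert ha]
    exact Close.mul_one hA hm (h a (Finset.mem_insert_self a s))
      (ih fun i hi => h i (Finset.mem_insert_of_mem hi))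

theorem IsUnitAt.mul {x y : Qbar} (hx : IsUnitAt A x) (hy : IsUnitAt A y) : IsUnitAt A (x * y) := by
  refine ⟨A.mul_mem _ _ hx.1 hy.1, ?_, mul_ne_zero hx.2.2 hy.2.2⟩
  rw [mul_inv]
  exact A.mul_mem _ _ hx.2.1 hy.2.1

theorem IsUnitAt.inv {x : Qbar} (hx : IsUnitAt A x) : IsUnitAt A x⁻¹ :=
  ⟨hx.2.1, by rw [inv_inv]; exact hx.1, inv_ne_zero hx.2.2⟩

theorem IsUnitAt.map {x : Qbar} (hx : IsUnitAt A x) {σ : GQ}
    (hσ : σ ∈ A.decompositionSubgroup ℚ) : IsUnitAt A (σ x) := by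
  have h := (mem_decompositionSubgroup_iff A σ).mp hσ
  refine ⟨(h x).mpr hx.1, ?_, ?_⟩
  · rw [← map_inv₀]
    exact (h _).mpr hx.2.1
  · rw [Ne, map_eq_zero_iff _ σ.injective]
    exact hx.2.2

theorem isUnitAt_of_pow {x : Qbar} {n : ℕ} (hn : 0 < n) (hx : IsUnitAt A (x ^ n)) :
    IsUnitAt A x := by
  have h1 : A.valuation (x ^ n) ≤ 1 := (ValuationSubring.valuation_le_one_iff A _).mpr hx.1
  have h2 : A.valuation (x ^ n)⁻¹ ≤ 1 := (ValuationSubring.valuation_le_one_iff A _).mpr hx.2.1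
  have hx0 : x ≠ 0 := by
    rintro rfl
    exact hx.2.2 (zero_pow hn.ne')
  rw [map_pow] at h1
  rw [← inv_pow, map_pow] at h2
  refine ⟨(ValuationSubring.valuation_le_one_iff A _).mp ?_,
    (ValuationSubring.valuation_le_one_iff A _).mp ?_, hx0⟩
  · exact (pow_le_one_iff_of_nonneg zero_le hn.ne').mp h1
  · exact (pow_le_one_iff_of_nonneg zero_le hn.ne').mp h2

/-- a root of unity is a unit at every place -/
theorem isUnitAt_of_pow_eq_one {x : Qbar} {n : ℕ} (hn : 0 < n) (hx : x ^ n = 1) : IsUnitAt A x := by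
  apply isUnitAt_of_pow hn
  rw [hx]
  exact ⟨A.one_mem, by rw [inv_one]; exact A.one_mem, one_ne_zero⟩

/-- a prime different from the residue characteristic is a unit -/
theorem isUnitAt_natCast {p : ℕ} (hp : p.Prime) (hq : q.Prime) (hpq : p ≠ q)
    (hA : A.LiesOverPrime q) : IsUnitAt A (p : Qbar) := by
  rw [isUnitAt_iff]
  refine ⟨natCast_mem_valuationSubring p, fun hpn => ?_⟩
  have hq' : (q : Qbar) ∈ A.nonunits := hA
  have hcop : IsCoprime (p : ℤ) (q : ℤ) :=
    Nat.isCoprime_iff_coprime.mpr ((Nat.coprime_primes hp hq).mpr hpq)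
  obtain ⟨a, b, hab⟩ := hcop
  have hab' : (a : Qbar) * (p : Qbar) + (b : Qbar) * (q : Qbar) = 1 := by exact_mod_cast hab
  have hpv : A.valuation (p : Qbar) < 1 := (ValuationSubring.mem_nonunits_iff A).mp hpn
  have hqv : A.valuation (q : Qbar) < 1 := (ValuationSubring.mem_nonunits_iff A).mp hq'
  have hav : A.valuation (a : Qbar) ≤ 1 :=
    (ValuationSubring.valuation_le_one_iff A _).mpr (intCast_mem A a)
  have hbv : A.valuation (b : Qbar) ≤ 1 :=
    (ValuationSubring.valuation_le_one_iff A _).mpr (intCast_mem A b)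
  have h1 : A.valuation ((a : Qbar) * (p : Qbar)) < 1 := by
    rw [map_mul]
    exact mul_lt_one_of_nonneg_of_lt_one_right hav zero_le hpv
  have h2 : A.valuation ((b : Qbar) * (q : Qbar)) < 1 := by
    rw [map_mul]
    exact mul_lt_one_of_nonneg_of_lt_one_right hbv zero_le hqv
  have h3 := Valuation.map_add_lt A.valuation h1 h2
  rw [hab', map_one] at h3
  exact lt_irrefl _ h3

end Fermat.Agent.S55.P
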