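import Fermat.Agent.S55.Core.Defs
import Fermat.Agent.S55.P.Unram

/-!
# S55, block (P): the level structures `levAll`, `levS S` on `Gal(ℚ̄/ℚ)`
-/

set_option autoImplicit false

namespace Fermat.Agent.S55.P

open NumberField ExtCitation groupCohomology
open scoped Pointwise

local notation "Qbar" => AlgebraicClosure ℚ
local notation "GQ" => (AlgebraicClosure ℚ ≃ₐ[ℚ] AlgebraicClosure ℚ)

theorem finiteIndex_fixingSubgroup (F : IntermediateField ℚ Qbar) [FiniteDimensional ℚ F] :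
    F.fixingSubgroup.FiniteIndex := by
  refine ⟨?_⟩
  rw [index_fixingSubgroup]
  exact Module.finrank_pos.ne'

/-- the levels given by the number fields unramified outside `S` -/
noncomputable def levS (S : Finset Nat.Primes) : Lev GQ where
  sets := {U | ∃ F : IntermediateField ℚ Qbar, F.IsUnramifiedOutside S ∧ U = F.fixingSubgroup}
  nonempty := ⟨_, ⊥, IntermediateField.isUnramifiedOutside_bot S, rfl⟩
  directed := by
    rintro _ ⟨F, hF, rfl⟩ _ ⟨F', hF', rfl⟩
    exact ⟨_, ⟨F ⊔ F', hF.sup hF', rfl⟩, by rw [IntermediateField.fixingSubgroup_sup]⟩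
  normal := by
    rintro _ ⟨F, hF, rfl⟩
    obtain ⟨E, hFE, hE, -, hn⟩ := exists_isGalois_isUnramifiedOutside hF
    exact ⟨_, ⟨E, hE, rfl⟩, IntermediateField.fixingSubgroup_antitone hFE, hn⟩
  finiteIndex := by
    rintro _ ⟨F, hF, rfl⟩
    have := hF.1
    exact finiteIndex_fixingSubgroup F

/-- the levels given by all number fields -/
noncomputable def levAll : Lev GQ where
  sets := {U | ∃ F : IntermediateField ℚ Qbar, FiniteDimensional ℚ F ∧ U = F.fixingSubgroup}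
  nonempty := ⟨_, ⊥, inferInstance, rfl⟩
  directed := by
    rintro _ ⟨F, hF, rfl⟩ _ ⟨F', hF', rfl⟩
    exact ⟨_, ⟨F ⊔ F', IntermediateField.finiteDimensional_sup F F', rfl⟩,
      by rw [IntermediateField.fixingSubgroup_sup]⟩
  normal := by
    rintro _ ⟨F, hF, rfl⟩
    have : IsGalois ℚ Qbar := Fermat.Agent.Lib.FrobeniusExists.isGalois_algebraicClosure_rat
    refine ⟨_, ⟨IntermediateField.normalClosure ℚ F Qbar, inferInstance, rfl⟩,
      IntermediateField.fixingSubgroup_antitone (IntermediateField.le_normalClosure F), ?_⟩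
    have : Normal ℚ Qbar := this.to_normal
    have : IsGalois ℚ (IntermediateField.normalClosure ℚ F Qbar) :=
      { to_isSeparable := inferInstance, to_normal := normalClosure.normal ℚ F Qbar }
    exact IsGalois.fixingSubgroup_normal_of_isGalois _
  finiteIndex := by
    rintro _ ⟨F, hF, rfl⟩
    exact finiteIndex_fixingSubgroup F

theorem mem_levS_sets {S : Finset Nat.Primes} {U : Subgroup GQ} :
    U ∈ (levS S).sets ↔
      ∃ F : IntermediateField ℚ Qbar, F.IsUnramifiedOutside S ∧ U = F.fixingSubgroup := Iff.rfl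

theorem mem_levAll_sets {U : Subgroup GQ} :
    U ∈ levAll.sets ↔
      ∃ F : IntermediateField ℚ Qbar, FiniteDimensional ℚ F ∧ U = F.fixingSubgroup := Iff.rfl

theorem cont_levAll_levS (S : Finset Nat.Primes) : Lev.Cont levAll (levS S) (MonoidHom.id GQ) := by
  rintro _ ⟨F, hF, rfl⟩
  exact ⟨_, ⟨F, hF.1, rfl⟩, le_rfl⟩

/-! ### comparison with the prelude's predicates -/

theorem isLev₁_levS_iff {S : Finset Nat.Primes} {X : Type*} (f : GQ → X) :
    IsLev₁ (levS S) f ↔ IsLevelConstantS₁ S f := by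
  constructor
  · rintro ⟨_, ⟨F, hF, rfl⟩, h⟩
    exact ⟨F, hF, fun g s hs => h g s hs⟩
  · rintro ⟨F, hF, h⟩
    exact ⟨_, ⟨F, hF, rfl⟩, fun g s hs => h g s hs⟩

theorem isLev₂_levS_iff {S : Finset Nat.Primes} {X : Type*} (f : GQ × GQ → X) :
    IsLev₂ (levS S) f ↔ IsLevelConstantS₂ S f := by
  constructor
  · rintro ⟨_, ⟨F, hF, rfl⟩, h⟩
    exact ⟨F, hF, fun g g' s s' hs hs' => h g g' s hs s' hs'⟩
  · rintro ⟨F, hF, h⟩
    exact ⟨_, ⟨F, hF, rfl⟩, fun g g' s hs s' hs' => h g g' s s' hs hs'⟩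

theorem isLev₁_comap_levAll_iff {H : Type} [Group H] (r : H →* GQ) {X : Type*} (f : H → X) :
    IsLev₁ (levAll.comap r) f ↔ IsLevelConstant₁ r f := by
  constructor
  · rintro ⟨_, ⟨_, ⟨F, hF, rfl⟩, rfl⟩, h⟩
    exact ⟨F, hF, fun g s hs => h g s hs⟩
  · rintro ⟨F, hF, h⟩
    exact ⟨_, ⟨_, ⟨F, hF, rfl⟩, rfl⟩, fun g s hs => h g s hs⟩

theorem isLev₂_comap_levAll_iff {H : Type} [Group H] (r : H →* GQ) {X : Type*} (f : H × H → X) :
    IsLev₂ (levAll.comap r) f ↔ IsLevelConstant₂ r f := by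
  constructor
  · rintro ⟨_, ⟨_, ⟨F, hF, rfl⟩, rfl⟩, h⟩
    exact ⟨F, hF, fun g g' s s' hs hs' => h g g' s hs s' hs'⟩
  · rintro ⟨F, hF, h⟩
    exact ⟨_, ⟨_, ⟨F, hF, rfl⟩, rfl⟩, fun g g' s hs s' hs' => h g g' s s' hs hs'⟩

end Fermat.Agent.S55.P
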