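import Mathlib
import Fermat.Prelude.Def_GroupCohomology_ContinuousUnramified
import Fermat.Agent.Lib.FrobeniusExists

/-!
# S55, block (P): places dictionary, basic definitions

`primeUnder K A` is the prime ideal of `𝓞 K` cut out by a valuation subring `A` of `ℚ̄`.
-/

set_option autoImplicit false

namespace Fermat.Agent.S55.P

open NumberField
open scoped Pointwise

local notation "Qbar" => AlgebraicClosure ℚ
local notation "GQ" => (AlgebraicClosure ℚ ≃ₐ[ℚ] AlgebraicClosure ℚ)

/-- algebraic integers lie in every valuation subring -/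
theorem coe_mem_valuationSubring (K : IntermediateField ℚ Qbar) (A : ValuationSubring Qbar)
    (x : 𝓞 K) : (((x : K) : Qbar)) ∈ A := by
  have hx : IsIntegral ℤ (((x : K) : Qbar)) :=
    (RingOfIntegers.isIntegral_coe x).map (IsScalarTower.toAlgHom ℤ K Qbar)
  exact Fermat.Agent.Lib.FrobeniusExists.integralClosure_le A ⟨_, hx⟩

/-- the ring homomorphism `𝓞 K → A`. -/
noncomputable def toValuationSubring (K : IntermediateField ℚ Qbar) (A : ValuationSubring Qbar) : 𝓞 K →+* A where
  toFun x := ⟨((x : K) : Qbar), coe_mem_valuationSubring K A x⟩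
  map_one' := rfl
  map_mul' _ _ := rfl
  map_zero' := rfl
  map_add' _ _ := rfl

/-- The prime ideal of `𝓞 K` under the place `A` of `ℚ̄`. -/
noncomputable def primeUnder (K : IntermediateField ℚ Qbar) (A : ValuationSubring Qbar) : Ideal (𝓞 K) :=
  (IsLocalRing.maximalIdeal A).comap (toValuationSubring K A)

theorem mem_primeUnder {K : IntermediateField ℚ Qbar} {A : ValuationSubring Qbar} {x : 𝓞 K} :
    x ∈ primeUnder K A ↔ (((x : K) : Qbar)) ∈ A.nonunits := by
  rw [primeUnder, Ideal.mem_comap, ValuationSubring.mem_nonunits_iff_exists_mem_maximalIdeal]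
  constructor
  · intro h
    exact ⟨coe_mem_valuationSubring K A x, h⟩
  · rintro ⟨_, h⟩
    exact h

instance primeUnder_isPrime (K : IntermediateField ℚ Qbar) (A : ValuationSubring Qbar) :
    (primeUnder K A).IsPrime :=
  Ideal.comap_isPrime _ _

theorem natCast_mem_primeUnder {K : IntermediateField ℚ Qbar} {A : ValuationSubring Qbar} {q : ℕ}
    (hA : A.LiesOverPrime q) : (q : 𝓞 K) ∈ primeUnder K A := by
  rw [mem_primeUnder]
  have h : (((q : 𝓞 K) : K) : Qbar) = (q : Qbar) := by simp
  rw [h]
  exact hA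

theorem primeUnder_ne_bot {K : IntermediateField ℚ Qbar} {A : ValuationSubring Qbar} {q : ℕ}
    (hq : q ≠ 0) (hA : A.LiesOverPrime q) : primeUnder K A ≠ ⊥ := by
  intro h
  have h1 := natCast_mem_primeUnder (K := K) hA
  rw [h, Ideal.mem_bot] at h1
  exact hq (by exact_mod_cast h1)

/-- `x - y ∈ q ^ m • A`: the congruence form of "`x` is close to `y`" at the place `A` over `q`. -/
def Close (A : ValuationSubring Qbar) (q m : ℕ) (x y : Qbar) : Prop :=
  ∃ z ∈ A, x - y = (q : Qbar) ^ m * z

/-- `x` is a unit at `A`. -/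
def IsUnitAt (A : ValuationSubring Qbar) (x : Qbar) : Prop := x ∈ A ∧ x⁻¹ ∈ A ∧ x ≠ 0

end Fermat.Agent.S55.P
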