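import Fermat.Agent.S55.P.Close
import Fermat.Agent.S55.P.HensDec

/-!
# S55, block (P), package P-DENS: a number field `K` is dense in `hens q ⊔ K`
-/

set_option autoImplicit false

namespace Fermat.Agent.S55.P

open NumberField
open scoped Pointwise

local notation "Qbar" => AlgebraicClosure ℚ
local notation "GQ" => (AlgebraicClosure ℚ ≃ₐ[ℚ] AlgebraicClosure ℚ)

variable (q : ℕ) [Fact q.Prime]

theorem close_padicPlace_iff (m : ℕ) (x y : Qbar) :
    Close (padicPlace q) q m x y ↔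
      ‖padicEmbedding q x - padicEmbedding q y‖ ≤ (q : ℝ) ^ (-(m : ℤ)) := by
  have hq0 : (0 : ℝ) < q := by exact_mod_cast (Fact.out : q.Prime).pos
  have hqne : (q : Qbar) ^ m ≠ 0 := pow_ne_zero _ (by exact_mod_cast (Fact.out : q.Prime).ne_zero)
  have hpow : (q : ℝ) ^ (-(m : ℤ)) = ((q : ℝ)⁻¹) ^ m := by
    rw [zpow_neg, zpow_natCast, inv_pow]
  rw [hpow, ← map_sub]
  constructor
  · rintro ⟨z, hz, hxy⟩
    rw [hxy, map_mul, map_pow, norm_mul, norm_pow, norm_padicEmbedding_natCast]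
    exact mul_le_of_le_one_right (by positivity) ((mem_padicPlace_iff_norm q).mp hz)
  · intro h
    refine ⟨(x - y) / (q : Qbar) ^ m, ?_, by rw [mul_div_cancel₀ _ hqne]⟩
    rw [mem_padicPlace_iff_norm, map_div₀, map_pow, norm_div, norm_pow,
      norm_padicEmbedding_natCast, div_le_one (by positivity)]
    exact h

/-- every element of `ℚ̄` becomes integral at `padicPlace q` after multiplication by a power of `q` -/
theorem exists_pow_mul_mem_padicPlace (x : Qbar) : ∃ t : ℕ, (q : Qbar) ^ t * x ∈ padicPlace q := by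
  have hq1 : (1 : ℝ) < q := by exact_mod_cast (Fact.out : q.Prime).one_lt
  have hq0 : (0 : ℝ) < q := by linarith
  obtain ⟨t, ht⟩ := pow_unbounded_of_one_lt ‖padicEmbedding q x‖ hq1
  refine ⟨t, ?_⟩
  rw [mem_padicPlace_iff_norm, map_mul, map_pow, norm_mul, norm_pow, norm_padicEmbedding_natCast,
    inv_pow, inv_mul_le_iff₀ (by positivity), mul_one]
  exact ht.le

/-- `ℚ` is dense in `hens q` -/
theorem exists_rat_close {y : Qbar} (hy : y ∈ hens q) (m : ℕ) :
    ∃ r : ℚ, Close (padicPlace q) q m y (algebraMap ℚ Qbar r) := by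
  have hq0 : (0 : ℝ) < q := by exact_mod_cast (Fact.out : q.Prime).pos
  obtain ⟨y', hy'⟩ := (mem_hens_iff q).mp hy
  obtain ⟨r, hr⟩ := Padic.rat_dense q y' (ε := (q : ℝ) ^ (-(m : ℤ))) (by positivity)
  refine ⟨r, ?_⟩
  rw [close_padicPlace_iff, ← hy']
  have h0 : padicEmbedding q (algebraMap ℚ Qbar r) = (r : PadicAlgCl q) := by
    rw [eq_ratCast, map_ratCast]
  have h1 : algebraMap ℚ_[q] (PadicAlgCl q) y' - (r : PadicAlgCl q)
      = algebraMap ℚ_[q] (PadicAlgCl q) (y' - (r : ℚ_[q])) := by simp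
  have h2 := PadicAlgCl.norm_extends q (y' - (r : ℚ_[q]))
  rw [h0, h1, h2]
  exact hr.le

/-- `hens q ⊔ K` is spanned by `K` over `hens q` -/
theorem exists_sum_of_mem_sup (K : IntermediateField ℚ Qbar) {y : Qbar} (hy : y ∈ hens q ⊔ K) :
    ∃ (n : ℕ) (c b : Fin n → Qbar), (∀ i, c i ∈ hens q) ∧ (∀ i, b i ∈ K) ∧ y = ∑ i, c i * b i := by
  have h1 : y ∈ (hens q ⊔ K).toSubalgebra := hy
  clear hy
  have := Fermat.Agent.Lib.FrobeniusExists.isGalois_algebraicClosure_rat
  have halg : @Algebra.IsAlgebraic ℚ K _ _ K.algebra' :=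
    ⟨fun x => IntermediateField.isAlgebraic_iff.mpr (Algebra.IsAlgebraic.isAlgebraic (x : Qbar))⟩
  rw [IntermediateField.sup_toSubalgebra_of_isAlgebraic (hens q) K (Or.inr halg),
    ← Subalgebra.mem_toSubmodule, ← Subalgebra.mul_toSubmodule] at h1
  induction h1 using Submodule.mul_induction_on' with
  | mem_mul_mem c hc b hb =>
    exact ⟨1, fun _ => c, fun _ => b, fun _ => hc, fun _ => hb, by simp⟩
  | add x _ y _ hx hy =>
    obtain ⟨n1, c1, b1, hc1, hb1, rfl⟩ := hx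
    obtain ⟨n2, c2, b2, hc2, hb2, rfl⟩ := hy
    refine ⟨n1 + n2, Fin.append c1 c2, Fin.append b1 b2, ?_, ?_, ?_⟩
    · intro i
      refine Fin.addCases (fun j => ?_) (fun j => ?_) i
      · rw [Fin.append_left]; exact hc1 j
      · rw [Fin.append_right]; exact hc2 j
    · intro i
      refine Fin.addCases (fun j => ?_) (fun j => ?_) i
      · rw [Fin.append_left]; exact hb1 j
      · rw [Fin.append_right]; exact hb2 j
    · rw [Fin.sum_univ_add]
      simp

/-- `K` is dense in `hens q ⊔ K` -/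
theorem exists_close_of_mem_sup (K : IntermediateField ℚ Qbar) {y : Qbar} (hy : y ∈ hens q ⊔ K)
    (m : ℕ) : ∃ y₀ ∈ K, Close (padicPlace q) q m y y₀ := by
  obtain ⟨n, c, b, hc, hb, rfl⟩ := exists_sum_of_mem_sup q K hy
  choose t ht using fun i => exists_pow_mul_mem_padicPlace q (b i)
  choose r hr using fun i => exists_rat_close q (hc i) (m + t i)
  choose z hz hcz using hr
  refine ⟨∑ i, algebraMap ℚ Qbar (r i) * b i, ?_, ∑ i, z i * ((q : Qbar) ^ t i * b i), ?_, ?_⟩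
  · exact sum_mem fun i _ => mul_mem (K.algebraMap_mem _) (hb i)
  · exact sum_mem fun i _ => mul_mem (hz i) (ht i)
  · rw [← Finset.sum_sub_distrib, Finset.mul_sum]
    refine Finset.sum_congr rfl fun i _ => ?_
    rw [← sub_mul, hcz i, pow_add]
    ring

/-- multiplicative form -/
theorem exists_close_one_of_mem_sup (K : IntermediateField ℚ Qbar) {y : Qbar}
    (hy : y ∈ hens q ⊔ K) (hy0 : y ≠ 0) (m : ℕ) :
    ∃ y₀ ∈ K, y₀ ≠ 0 ∧ Close (padicPlace q) q m (y / y₀) 1 := by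
  obtain ⟨t, ht⟩ := exists_pow_mul_mem_padicPlace q y⁻¹
  obtain ⟨y₀, hy₀, z, hz, hyz⟩ := exists_close_of_mem_sup q K hy (m + 1 + t)
  have hA := padicPlace_liesOverPrime q
  have h1 : Close (padicPlace q) q (m + 1) (y₀ / y) 1 := by
    refine ⟨-(z * ((q : Qbar) ^ t * y⁻¹)), neg_mem (mul_mem hz ht), ?_⟩
    have : y₀ = y - (q : Qbar) ^ (m + 1 + t) * z := by rw [← hyz]; ring
    rw [this, pow_add]
    field_simp
    ring
  have h2 := h1.isUnitAt hA (Nat.succ_pos m)
  have hy₀0 : y₀ ≠ 0 := by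
    rintro rfl
    exact h2.2.2 (by simp)
  refine ⟨y₀, hy₀, hy₀0, ?_⟩
  have h3 := (h1.inv hA (Nat.succ_pos m)).mono (Nat.le_succ m)
  rwa [inv_div] at h3

/-- approximation of a "group theoretic norm": if `a = ∏ τ_i y` with `y ∈ hens q ⊔ L` and
`τ_i` in the decomposition group, then `a` is close to `∏ τ_i y₀` for some `y₀ ∈ L`. -/
theorem exists_prod_close_one (L : IntermediateField ℚ Qbar) {ι : Type*} (s : Finset ι)
    (τ : ι → GQ) (hτ : ∀ i ∈ s, τ i ∈ (padicPlace q).decompositionSubgroup ℚ) {y : Qbar}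
    (hy : y ∈ hens q ⊔ L) (hy0 : y ≠ 0) (m : ℕ) :
    ∃ y₀ ∈ L, y₀ ≠ 0 ∧ Close (padicPlace q) q m ((∏ i ∈ s, τ i y) / ∏ i ∈ s, τ i y₀) 1 := by
  obtain ⟨y₀, hy₀, hy₀0, h⟩ := exists_close_one_of_mem_sup q L hy hy0 (m + 1)
  have hA := padicPlace_liesOverPrime q
  refine ⟨y₀, hy₀, hy₀0, ?_⟩
  rw [← Finset.prod_div_distrib]
  refine (Close.prod_one s _ hA (Nat.succ_pos m) fun i hi => ?_).mono (Nat.le_succ m)
  have h1 := h.map (hτ i hi)
  rwa [map_div₀, map_one] at h1

end Fermat.Agent.S55.P
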