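import Mathlib
import Fermat.Prelude.Def_GaloisRep_CompletionBridge
import Fermat.Agent.Lib.FrobeniusExists

/-!
# S55, block (P): the henselisation of `ℚ` at `q` inside `ℚ̄`
-/

set_option autoImplicit false

namespace Fermat.Agent.S55.P

open scoped NNReal Pointwise

local notation "Qbar" => AlgebraicClosure ℚ
local notation "GQ" => (AlgebraicClosure ℚ ≃ₐ[ℚ] AlgebraicClosure ℚ)

variable (q : ℕ) [Fact q.Prime]

/-- The henselisation of `ℚ` at `q`: the algebraic numbers which lie in `ℚ_q`. -/
noncomputable def hens : IntermediateField ℚ Qbar :=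
  ((⊥ : IntermediateField ℚ_[q] (PadicAlgCl q)).restrictScalars ℚ).comap (padicEmbedding q)

theorem mem_hens_iff {x : Qbar} :
    x ∈ hens q ↔ ∃ y : ℚ_[q], algebraMap ℚ_[q] (PadicAlgCl q) y = padicEmbedding q x := by
  change padicEmbedding q x ∈ (⊥ : IntermediateField ℚ_[q] (PadicAlgCl q)) ↔ _
  rw [IntermediateField.mem_bot]
  rfl

theorem padicEmbedding_injective : Function.Injective (padicEmbedding q) :=
  (padicEmbedding q).toRingHom.injective

/-- `localGaloisToGlobal` is continuous for the Krull topologies. -/
theorem continuous_localGaloisToGlobal : Continuous (localGaloisToGlobal q) := by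
  apply continuous_of_continuousAt_one
  rw [ContinuousAt, map_one]
  intro s hs
  rw [krullTopology_mem_nhds_one_iff] at hs
  obtain ⟨E, hE, hEs⟩ := hs
  rw [Filter.mem_map]
  obtain ⟨S, hS⟩ := (Module.Finite.fg_top : (⊤ : Submodule ℚ E).FG)
  have hopen : IsOpen (⋂ b ∈ S, (MulAction.stabilizer (PadicAlgCl q ≃ₐ[ℚ_[q]] PadicAlgCl q)
      (padicEmbedding q ((b : E) : Qbar)) : Set (PadicAlgCl q ≃ₐ[ℚ_[q]] PadicAlgCl q))) :=
    isOpen_biInter_finset (fun b _ => stabilizer_isOpen_of_isIntegral _)
  refine Filter.mem_of_superset (hopen.mem_nhds ?_) ?_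
  · simp
  · intro τ hτ
    apply hEs
    rw [SetLike.mem_coe, IntermediateField.mem_fixingSubgroup_iff]
    intro x hx
    have hmem : (⟨x, hx⟩ : E) ∈ Submodule.span ℚ (S : Set E) := hS ▸ Submodule.mem_top
    have key : ∀ y : E, y ∈ Submodule.span ℚ (S : Set E) →
        localGaloisToGlobal q τ (y : Qbar) = (y : Qbar) := by
      intro y hy
      induction hy using Submodule.span_induction with
      | mem b hb =>
        apply padicEmbedding_injective q
        rw [padicEmbedding_localGaloisToGlobal]
        have h1 := Set.mem_iInter₂.mp hτ b hb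
        exact h1
      | zero => simp
      | add a b _ _ ha hb =>
        push_cast
        rw [map_add, ha, hb]
      | smul c a _ ha =>
        have h2 : ((c • a : E) : Qbar) = (c : Qbar) * (a : Qbar) := by
          rw [Rat.smul_def]
          push_cast
          rfl
        rw [h2, map_mul, ha, map_ratCast]
    exact key ⟨x, hx⟩ hmem

theorem isClosed_range_localGaloisToGlobal :
    IsClosed ((localGaloisToGlobal q).range : Set GQ) := by
  have : IsGalois ℚ Qbar := Fermat.Agent.Lib.FrobeniusExists.isGalois_algebraicClosure_rat
  have h : IsCompact (Set.range (localGaloisToGlobal q)) :=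
    isCompact_range (continuous_localGaloisToGlobal q)
  exact h.isClosed

/-- The fixed field of the image of the local Galois group is the henselisation. -/
theorem fixedField_range_localGaloisToGlobal :
    IntermediateField.fixedField (localGaloisToGlobal q).range = hens q := by
  ext x
  rw [IntermediateField.mem_fixedField_iff, mem_hens_iff]
  constructor
  · intro h
    have h1 : padicEmbedding q x ∈ (⊥ : IntermediateField ℚ_[q] (PadicAlgCl q)) := by
      rw [InfiniteGalois.mem_bot_iff_fixed]
      intro τ
      rw [← padicEmbedding_localGaloisToGlobal, h _ ⟨τ, rfl⟩]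
    exact IntermediateField.mem_bot.mp h1
  · rintro ⟨y, hy⟩ _ ⟨τ, rfl⟩
    apply padicEmbedding_injective q
    rw [padicEmbedding_localGaloisToGlobal, ← hy, AlgEquiv.commutes]

/-- **Natural irrationalities**: the image of the local Galois group in `Gal(ℚ̄/ℚ)` is the Galois
group of `ℚ̄` over the henselisation. -/
theorem range_localGaloisToGlobal :
    (localGaloisToGlobal q).range = (hens q).fixingSubgroup := by
  have : IsGalois ℚ Qbar := Fermat.Agent.Lib.FrobeniusExists.isGalois_algebraicClosure_rat
  have h1 := InfiniteGalois.fixingSubgroup_fixedField (k := ℚ) (K := Qbar)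
    ⟨(localGaloisToGlobal q).range, isClosed_range_localGaloisToGlobal q⟩
  change (IntermediateField.fixedField (localGaloisToGlobal q).range).fixingSubgroup
    = (localGaloisToGlobal q).range at h1
  rw [← h1, fixedField_range_localGaloisToGlobal]

end Fermat.Agent.S55.P
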