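import Fermat.Agent.S55.P.HensDec

/-!
# S55, block (P): relative transitivity of the Galois action on places (generic form)
-/

set_option autoImplicit false

namespace Fermat.Agent.S55.P

open scoped NNReal Pointwise NumberField

local notation "Qbar" => AlgebraicClosure ℚ
local notation "GQ" => (AlgebraicClosure ℚ ≃ₐ[ℚ] AlgebraicClosure ℚ)

section Relative

open Fermat.Agent.Lib.FrobeniusExists

attribute [local instance] galAction

variable {L : Type*} [Field L] [Algebra ℚ L]

/-- `Gal(L/K)` permutes transitively the valuation subrings of `L` inducing the same prime on the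
integers of `K`. -/
theorem exists_smul_eq_of_forall_mem_iff [IsGalois ℚ L] (K : IntermediateField ℚ L)
    (A B : ValuationSubring L)
    (h : ∀ x ∈ K, IsIntegral ℤ x → (x ∈ A.nonunits ↔ x ∈ B.nonunits)) :
    ∃ u ∈ K.fixingSubgroup, u • A = B := by
  classical
  let U : Subgroup (L ≃ₐ[ℚ] L) := K.fixingSubgroup
  let A' := FixedPoints.subalgebra ℤ (integralClosure ℤ L) U
  have hUcl : IsClosed (U : Set (L ≃ₐ[ℚ] L)) := InfiniteGalois.fixingSubgroup_isClosed K
  have : CompactSpace U := isCompact_iff_compactSpace.mp hUcl.isCompact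
  let _ : TopologicalSpace (integralClosure ℤ L) := ⊥
  have : DiscreteTopology (integralClosure ℤ L) := ⟨rfl⟩
  have : ContinuousSMul (L ≃ₐ[ℚ] L) (integralClosure ℤ L) := by
    rw [continuousSMul_iff_stabilizer_isOpen]
    intro b
    convert stabilizer_isOpen_of_isIntegral (K := ℚ) (b : L) using 1
    ext g
    simp only [SetLike.mem_coe, MulAction.mem_stabilizer_iff]
    exact Subtype.ext_iff
  have : Algebra.IsInvariant A' (integralClosure ℤ L) U := ⟨fun b hb => ⟨⟨b, hb⟩, rfl⟩⟩
  have hunder : ((IsLocalRing.maximalIdeal A).comap (incl A)).under A'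
      = ((IsLocalRing.maximalIdeal B).comap (incl B)).under A' := by
    ext ⟨x, hx⟩
    have hxK : (x : L) ∈ K := by
      rw [← InfiniteGalois.fixedField_fixingSubgroup K, IntermediateField.mem_fixedField_iff]
      intro σ hσ
      exact congrArg Subtype.val (hx ⟨σ, hσ⟩)
    have := h x hxK x.2
    rw [Ideal.mem_comap, Ideal.mem_comap]
    change x ∈ (IsLocalRing.maximalIdeal A).comap (incl A)
      ↔ x ∈ (IsLocalRing.maximalIdeal B).comap (incl B)
    rw [mem_comap_incl_iff, mem_comap_incl_iff]
    exact this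
  obtain ⟨g, hg⟩ := Algebra.IsInvariant.exists_smul_of_under_eq_of_profinite
    (A := A') (G := U) ((IsLocalRing.maximalIdeal A).comap (incl A))
    ((IsLocalRing.maximalIdeal B).comap (incl B)) hunder
  refine ⟨g, g.2, le_antisymm ?_ ?_⟩
  · intro y hy
    obtain ⟨x, hx, rfl⟩ := (ValuationSubring.mem_smul_pointwise_iff_exists _ _ _).mp hy
    exact apply_mem_of_smul_eq' A B g hg.symm x hx
  · rw [ValuationSubring.subset_pointwise_smul_iff]
    intro y hy
    obtain ⟨x, hx, rfl⟩ := (ValuationSubring.mem_smul_pointwise_iff_exists _ _ _).mp hy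
    exact apply_mem_of_smul_eq' B A (g : L ≃ₐ[ℚ] L)⁻¹ (inv_smul_eq_iff.mpr hg) x hx

end Relative

end Fermat.Agent.S55.P
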